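import Mathlib.Algebra.Algebra.Rat
import Mathlib.RingTheory.Valuation.ValuationSubring
import Mathlib.RingTheory.Valuation.Integral
import Mathlib.RingTheory.Polynomial.Vieta
import Mathlib.RingTheory.IntegralClosure.IntegrallyClosed
import Mathlib.RingTheory.Valuation.LocalSubring
import Mathlib.FieldTheory.Galois.Infinite
import Mathlib.FieldTheory.IsAlgClosed.AlgebraicClosure
import Fermat.Prelude.Def_FLTPrelim_Ramification

/-!
# Galois-stable finite sets and valuation subrings over a prime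

* `forall_mem_of_forall_mem`: integrality at a prime of a Galois-stable finite set does not
  depend on the place above the prime.
* `not_stable_proper_subset`: the supersingular obstruction.
-/

set_option autoImplicit false

namespace FLTAgent.GalChar

local notation "ℚbar" => AlgebraicClosure ℚ

open Polynomial

/-- An element of `ℚbar` fixed by every automorphism is rational. -/
theorem exists_rat_of_fixed {x : ℚbar} (hx : ∀ σ : ℚbar ≃ₐ[ℚ] ℚbar, σ x = x) :
    ∃ r : ℚ, algebraMap ℚ ℚbar r = x := by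
  have : IsAlgClosure ℚ ℚbar := ⟨inferInstance, AlgebraicClosure.isAlgebraic ℚ⟩
  have : Normal ℚ ℚbar := IsAlgClosure.normal ℚ ℚbar
  have : IsGalois ℚ ℚbar := ⟨⟩
  exact (InfiniteGalois.mem_range_algebraMap_iff_fixed x).2 hx

variable {A : ValuationSubring ℚbar} {q : ℕ}

theorem valuation_natCast_lt_one (hA : A.LiesOverPrime q) :
    A.valuation (q : ℚbar) < 1 :=
  (ValuationSubring.mem_nonunits_iff _).1 hA

theorem valuation_intCast_le_one (A : ValuationSubring ℚbar) (n : ℤ) :
    A.valuation (n : ℚbar) ≤ 1 :=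
  (ValuationSubring.valuation_le_one_iff _ _).2 (intCast_mem A n)

theorem valuation_intCast_lt_one_of_dvd (hA : A.LiesOverPrime q) {n : ℤ} (hn : (q : ℤ) ∣ n) :
    A.valuation (n : ℚbar) < 1 := by
  obtain ⟨m, rfl⟩ := hn
  push_cast
  rw [map_mul]
  exact (mul_le_of_le_one_right' (valuation_intCast_le_one A m)).trans_lt
    (valuation_natCast_lt_one hA)

theorem valuation_intCast_eq_one (hA : A.LiesOverPrime q) (hq : q.Prime) {n : ℤ}
    (hn : ¬ (q : ℤ) ∣ n) : A.valuation (n : ℚbar) = 1 := by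
  refine le_antisymm (valuation_intCast_le_one A n) (not_lt.1 fun hlt => ?_)
  obtain ⟨u, v, huv⟩ :=
    ((Prime.coprime_iff_not_dvd (Nat.prime_iff_prime_int.1 hq)).2 hn : IsCoprime (q : ℤ) n)
  have h1 : A.valuation ((u : ℚbar) * (q : ℚbar) + (v : ℚbar) * (n : ℚbar)) = 1 := by
    rw [show (u : ℚbar) * (q : ℚbar) + (v : ℚbar) * (n : ℚbar) = ((u * q + v * n : ℤ) : ℚbar) by
      push_cast; rfl, huv, Int.cast_one, map_one]
  refine (lt_of_le_of_lt (A.valuation.map_add _ _) (max_lt ?_ ?_)).ne h1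
  · rw [map_mul]
    exact (mul_le_of_le_one_left' (valuation_intCast_le_one A u)).trans_lt
      (valuation_natCast_lt_one hA)
  · rw [map_mul]
    exact (mul_le_of_le_one_left' (valuation_intCast_le_one A v)).trans_lt hlt

theorem algebraMap_rat_eq_div (r : ℚ) :
    algebraMap ℚ ℚbar r = (r.num : ℚbar) / (r.den : ℚbar) := by
  conv_lhs => rw [← r.num_div_den]
  simp only [map_div₀, map_intCast, map_natCast]

theorem valuation_num_den (hA : A.LiesOverPrime q) (hq : q.Prime) {r : ℚ} (h : q ∣ r.den) :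
    A.valuation (r.num : ℚbar) = 1 := by
  refine valuation_intCast_eq_one hA hq fun hd => hq.one_lt.ne' ?_
  exact Nat.eq_one_of_dvd_coprimes r.reduced (Int.natCast_dvd.1 hd) h

/-- A rational number is integral at a place over `q` iff `q` does not divide its denominator. -/
theorem rat_mem_iff (hA : A.LiesOverPrime q) (hq : q.Prime) (r : ℚ) :
    algebraMap ℚ ℚbar r ∈ A ↔ ¬ q ∣ r.den := by
  rw [← ValuationSubring.valuation_le_one_iff, algebraMap_rat_eq_div, map_div₀]
  constructor
  · intro hle hd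
    rw [valuation_num_den hA hq hd, one_div] at hle
    have h1 : A.valuation (((r.den : ℤ)) : ℚbar) < 1 :=
      valuation_intCast_lt_one_of_dvd hA (Int.natCast_dvd_natCast.2 hd)
    rw [Int.cast_natCast] at h1
    have h0 : A.valuation (r.den : ℚbar) ≠ 0 :=
      (Valuation.ne_zero_iff _).2 (Nat.cast_ne_zero.2 r.den_nz)
    exact not_lt.2 hle (one_lt_inv_iff₀.2 ⟨zero_lt_iff.2 h0, h1⟩)
  · intro hd
    have h1 : A.valuation (((r.den : ℤ)) : ℚbar) = 1 :=
      valuation_intCast_eq_one hA hq fun h => hd (Int.natCast_dvd_natCast.1 h)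
    rw [Int.cast_natCast] at h1
    rw [h1, div_one]
    exact valuation_intCast_le_one A r.num

/-- A non-integral rational has valuation at least that of `q⁻¹`. -/
theorem one_le_valuation_mul_of_rat (hA : A.LiesOverPrime q) (hq : q.Prime) {r : ℚ}
    (hr : algebraMap ℚ ℚbar r ∉ A) :
    1 ≤ A.valuation (q : ℚbar) * A.valuation (algebraMap ℚ ℚbar r) := by
  have hd : q ∣ r.den := by
    by_contra h
    exact hr ((rat_mem_iff hA hq r).2 h)
  rw [algebraMap_rat_eq_div, map_div₀, valuation_num_den hA hq hd]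
  obtain ⟨k, hk⟩ := hd
  have h0 : A.valuation (r.den : ℚbar) ≠ 0 :=
    (Valuation.ne_zero_iff _).2 (Nat.cast_ne_zero.2 r.den_nz)
  rw [mul_one_div, one_le_div₀ (zero_lt_iff.2 h0), hk, Nat.cast_mul, map_mul]
  refine mul_le_of_le_one_right' ?_
  exact_mod_cast valuation_intCast_le_one A (k : ℤ)

theorem image_eq_of_stable [DecidableEq ℚbar] (S : Finset ℚbar)
    (hS : ∀ σ : ℚbar ≃ₐ[ℚ] ℚbar, ∀ r ∈ S, σ r ∈ S) (σ : ℚbar ≃ₐ[ℚ] ℚbar) :
    S.image σ = S := by
  refine Finset.eq_of_subset_of_card_le ?_ ?_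
  · intro r hr
    obtain ⟨s, hs, rfl⟩ := Finset.mem_image.1 hr
    exact hS σ s hs
  · rw [Finset.card_image_of_injective _ σ.injective]

/-- The monic polynomial with roots the elements of a Galois-stable finite set has rational
coefficients. -/
theorem exists_rat_coeff_prod_X_sub_C (S : Finset ℚbar)
    (hS : ∀ σ : ℚbar ≃ₐ[ℚ] ℚbar, ∀ r ∈ S, σ r ∈ S) (i : ℕ) :
    ∃ c : ℚ, algebraMap ℚ ℚbar c = (∏ r ∈ S, (X - C r)).coeff i := by
  classical
  refine exists_rat_of_fixed fun σ => ?_
  have himg := image_eq_of_stable S hS σ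
  have h : (∏ r ∈ S, (X - C r)).map (σ : ℚbar →+* ℚbar) = ∏ r ∈ S, (X - C r) := by
    rw [Polynomial.map_prod]
    conv_rhs => rw [← himg]
    rw [Finset.prod_image fun x _ y _ hxy => σ.injective hxy]
    simp
  conv_rhs => rw [← h]
  rw [Polynomial.coeff_map]
  rfl

/-- If a Galois-stable finite set is integral at one place over `q`, it is integral at all. -/
theorem forall_mem_of_forall_mem {A' : ValuationSubring ℚbar} (hq : q.Prime)
    (hA : A.LiesOverPrime q) (hA' : A'.LiesOverPrime q) (S : Finset ℚbar)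
    (hS : ∀ σ : ℚbar ≃ₐ[ℚ] ℚbar, ∀ r ∈ S, σ r ∈ S) (hmem : ∀ r ∈ S, r ∈ A) :
    ∀ r ∈ S, r ∈ A' := by
  intro r hr
  set g : ℚbar[X] := ∏ r ∈ S, (X - C r) with hg
  have hgA : g ∈ lifts A.subtype := by
    rw [hg]
    refine Subsemiring.prod_mem _ fun s hs => ?_
    exact ⟨X - C ⟨s, hmem s hs⟩, by simp⟩
  have hlifts : g ∈ lifts (algebraMap A' ℚbar) := by
    rw [lifts_iff_coeff_lifts]
    intro i
    obtain ⟨c, hc⟩ := exists_rat_coeff_prod_X_sub_C S hS i
    obtain ⟨a, ha⟩ := (lifts_iff_coeff_lifts g).1 hgA i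
    refine ⟨⟨g.coeff i, ?_⟩, rfl⟩
    rw [hg, ← hc, rat_mem_iff hA' hq, ← rat_mem_iff hA hq, hc, ← hg, ← ha]
    exact a.2
  obtain ⟨G, hG, -, hGm⟩ := lifts_and_degree_eq_and_monic hlifts
    (monic_prod_X_sub_C (fun r => r) S)
  have hint : IsIntegral A' r := ⟨G, hGm, by
    rw [eval₂_eq_eval_map, hG, hg, eval_prod]
    exact Finset.prod_eq_zero hr (by simp)⟩
  obtain ⟨y, hy⟩ := (IsIntegrallyClosed.isIntegral_iff (K := ℚbar)).1 hint
  exact hy ▸ y.2

/-- The supersingular obstruction: if `f ∈ ℤ[X]` has leading coefficient `q` and none of its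
roots is integral at `A`, then no proper nonempty set of its roots is Galois stable. -/
theorem not_stable_proper_subset (hq : q.Prime) (hA : A.LiesOverPrime q) (f : ℤ[X])
    (hlead : f.leadingCoeff = q)
    (hroots : ∀ r : ℚbar, (f.map (Int.castRingHom ℚbar)).eval r = 0 → r ∉ A)
    (T : Finset ℚbar) (hT0 : T.Nonempty)
    (hTroot : ∀ r ∈ T, (f.map (Int.castRingHom ℚbar)).eval r = 0)
    (hT : ∀ σ : ℚbar ≃ₐ[ℚ] ℚbar, ∀ r ∈ T, σ r ∈ T)
    (s : ℚbar) (hs : (f.map (Int.castRingHom ℚbar)).eval s = 0) (hsT : s ∉ T) : False := by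
  classical
  set g := f.map (Int.castRingHom ℚbar) with hg
  set v := A.valuation
  have hinj : Function.Injective (Int.castRingHom ℚbar) := Int.cast_injective
  have hlg : g.leadingCoeff = (q : ℚbar) := by
    rw [hg, leadingCoeff_map_of_injective hinj, hlead]
    simp
  have hg0 : g ≠ 0 := fun h => by
    rw [h, leadingCoeff_zero] at hlg
    exact hq.ne_zero (Nat.cast_eq_zero.1 hlg.symm)
  have hgt : ∀ r ∈ g.roots, 1 < v r := fun r hr =>
    not_le.1 fun h =>
      hroots r ((mem_roots hg0).1 hr) ((ValuationSubring.valuation_le_one_iff _ _).1 h)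
  -- the constant coefficient bounds the product of the valuations
  have hle : v (q : ℚbar) * (g.roots.map v).prod ≤ 1 := by
    have h0 : g.coeff 0 = (q : ℚbar) * ((-1) ^ g.natDegree * g.roots.prod) := by
      rw [(IsAlgClosed.splits g).coeff_zero_eq_leadingCoeff_mul_prod_roots, hlg]
      ring
    have h1 : v (g.coeff 0) ≤ 1 := by
      rw [hg, coeff_map]
      exact valuation_intCast_le_one A (f.coeff 0)
    rwa [h0, map_mul, map_mul, map_pow, Valuation.map_neg, map_one, one_pow, one_mul,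
      map_multiset_prod] at h1
  -- the product over `T` is rational
  obtain ⟨c, hc⟩ : ∃ c : ℚ, algebraMap ℚ ℚbar c = ∏ r ∈ T, r := by
    refine exists_rat_of_fixed fun σ => ?_
    rw [map_prod]
    conv_rhs => rw [← image_eq_of_stable T hT σ]
    rw [Finset.prod_image fun x _ y _ hxy => σ.injective hxy]
  have hle_roots : T.val ≤ g.roots :=
    (Multiset.le_iff_subset T.nodup).2 fun r hr => (mem_roots hg0).2 (hTroot r hr)
  have hT1 : 1 < ∏ r ∈ T, v r := by
    obtain ⟨r₀, hr₀⟩ := hT0
    rw [← Finset.mul_prod_erase T _ hr₀]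
    exact (hgt r₀ (Multiset.mem_of_le hle_roots hr₀)).trans_le (le_mul_of_one_le_right'
      (Finset.one_le_prod' fun r hr =>
        (hgt r (Multiset.mem_of_le hle_roots (Finset.mem_of_mem_erase hr))).le))
  have hnot : algebraMap ℚ ℚbar c ∉ A := by
    rw [← ValuationSubring.valuation_le_one_iff, hc, map_prod]
    exact not_le.2 hT1
  have h1 := one_le_valuation_mul_of_rat hA hq hnot
  rw [hc, map_prod] at h1
  -- the remaining roots
  have hsm : s ∈ g.roots - T.val :=
    (by
      rw [← Multiset.count_pos, Multiset.count_sub, Multiset.count_eq_zero_of_notMem (s := T.val) hsT,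
        Nat.sub_zero, Multiset.count_pos]
      exact (mem_roots hg0).2 hs)
  have h2 : 1 < ((g.roots - T.val).map v).prod := by
    rw [← Multiset.prod_map_erase hsm]
    exact (hgt s ((mem_roots hg0).2 hs)).trans_le (le_mul_of_one_le_right'
      (Multiset.one_le_prod_of_one_le fun x hx => by
        obtain ⟨r, hr, rfl⟩ := Multiset.mem_map.1 hx
        exact (hgt r (Multiset.mem_of_le (Multiset.sub_le_self _ _)
          (Multiset.mem_of_mem_erase hr))).le))
  rw [← Multiset.add_sub_cancel hle_roots] at hle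
  rw [Multiset.map_add, Multiset.prod_add, ← mul_assoc, mul_right_comm] at hle
  exact not_lt.2 hle (h2.trans_le (le_mul_of_one_le_left' h1))

end FLTAgent.GalChar
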