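import Mathlib.LinearAlgebra.FiniteDimensional.Lemmas
import Fermat.Agent.Char.Rational
import Fermat.Prelude.Def_FLTPrelim_CofixedLine

/-!
# Characters of a reducible representation on `E[p]`

Abstract part: a stable line in a two-dimensional representation, and the two subgroups on which
the sub-character and the quotient character are trivial.
-/

set_option autoImplicit false

namespace FLTAgent.GalChar

section Abstract

variable {G k V : Type*} [Group G] [Field k] [AddCommGroup V] [Module k V]
  [DistribMulAction G V] (N : Submodule k V)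

/-- Elements acting trivially on `N`. -/
def subKer : Subgroup G where
  carrier := {σ | ∀ x ∈ N, σ • x = x}
  one_mem' := fun x _ => one_smul G x
  mul_mem' := fun {a b} ha hb x hx => by rw [mul_smul, hb x hx, ha x hx]
  inv_mem' := fun {a} ha x hx => by rw [inv_smul_eq_iff, ha x hx]

theorem mem_subKer {σ : G} : σ ∈ subKer N ↔ ∀ x ∈ N, σ • x = x := Iff.rfl

/-- Elements acting trivially on the quotient by the stable subspace `N`. -/
def quotKer (hN : ∀ σ : G, ∀ x ∈ N, σ • x ∈ N) : Subgroup G where
  carrier := {σ | ∀ x : V, σ • x - x ∈ N}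
  one_mem' := fun x => by rw [one_smul, sub_self]; exact N.zero_mem
  mul_mem' := fun {a b} ha hb x => by
    rw [mul_smul, show a • b • x - x = (a • b • x - b • x) + (b • x - x) by abel]
    exact N.add_mem (ha _) (hb x)
  inv_mem' := fun {a} ha x => by
    have h := ha (a⁻¹ • x)
    rw [smul_inv_smul] at h
    simpa using N.neg_mem h

theorem mem_quotKer {hN : ∀ σ : G, ∀ x ∈ N, σ • x ∈ N} {σ : G} :
    σ ∈ quotKer N hN ↔ ∀ x : V, σ • x - x ∈ N := Iff.rfl

variable {N}

/-- A unipotent element lies in both kernels of a stable line. -/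
theorem mem_ker_of_unipotent [SMulCommClass G k V] (h2 : Module.finrank k V = 2)
    (hN : ∀ σ : G, ∀ x ∈ N, σ • x ∈ N) (hbot : N ≠ ⊥) (htop : N ≠ ⊤) {σ : G}
    (hσ : ∀ x : V, σ • (σ • x - x) = σ • x - x) : σ ∈ subKer N ∧ σ ∈ quotKer N hN := by
  have : FiniteDimensional k V := Module.finite_of_finrank_eq_succ h2
  have h1 : Module.finrank k N = 1 := by
    have hlt := Submodule.finrank_lt htop
    have hpos := Submodule.one_le_finrank_iff.2 hbot
    omega
  have hsub : σ ∈ subKer N := by
    intro x hx
    rcases eq_or_ne x 0 with rfl | hx0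
    · exact smul_zero σ
    obtain ⟨c, hc⟩ : ∃ c : k, σ • x - x = c • x := by
      obtain ⟨c, hc⟩ := (finrank_eq_one_iff_of_nonzero' (⟨x, hx⟩ : N)
        (by simpa [Subtype.ext_iff] using hx0)).1 h1 ⟨_, N.sub_mem (hN σ x hx) hx⟩
      exact ⟨c, (congrArg Subtype.val hc).symm⟩
    have h := hσ x
    rw [hc, smul_comm, ← sub_eq_zero, ← smul_sub, hc, smul_smul] at h
    rcases smul_eq_zero.1 h with h' | h'
    · rw [mul_self_eq_zero.1 h', zero_smul, sub_eq_zero] at hc
      exact hc
    · exact absurd h' hx0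
  refine ⟨hsub, fun x => ?_⟩
  by_contra hy
  -- `N` and `σ • x - x` span everything, so `σ` is trivial
  have hsup : N ⊔ Submodule.span k {σ • x - x} = ⊤ := by
    apply Submodule.eq_top_of_finrank_eq
    have hlt : N < N ⊔ Submodule.span k {σ • x - x} :=
      lt_of_le_of_ne le_sup_left fun he => hy (he ▸ le_sup_right
        (a := N) (Submodule.mem_span_singleton_self _))
    have h3 := Submodule.finrank_lt_finrank_of_lt hlt
    have h4 := Submodule.finrank_le (N ⊔ Submodule.span k {σ • x - x})
    omega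
  obtain ⟨n, hn, m, hm, hx⟩ :=
    Submodule.mem_sup.1 (hsup.symm ▸ Submodule.mem_top : x ∈ N ⊔ Submodule.span k {σ • x - x})
  obtain ⟨c, rfl⟩ := Submodule.mem_span_singleton.1 hm
  have hfix : σ • x = x := by
    have hh : σ • (n + c • (σ • x - x)) = n + c • (σ • x - x) := by
      rw [smul_add, hsub n hn, smul_comm σ c, hσ]
    rwa [hx] at hh
  exact hy (by rw [hfix, sub_self]; exact N.zero_mem)

/-- If a set of elements moves every vector into `L`, and `L` is not everything, then they lie in
the kernel of the quotient or of the sub according to `N ⊓ L`. -/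
theorem mem_subKer_of_disjoint (hN : ∀ σ : G, ∀ x ∈ N, σ • x ∈ N) (L : V → Prop)
    (hL : ∀ x ∈ N, L x → x = 0) {σ : G} (hσ : ∀ x : V, L (σ • x - x)) : σ ∈ subKer N :=
  fun x hx => sub_eq_zero.1 (hL _ (N.sub_mem (hN σ x hx) hx) (hσ x))

theorem mem_quotKer_of_le (h2 : Module.finrank k V = 2) (hN : ∀ σ : G, ∀ x ∈ N, σ • x ∈ N)
    (htop : N ≠ ⊤) (L : Submodule k V) (hLtop : L ≠ ⊤) {n : V} (hn : n ∈ N) (hn0 : n ≠ 0)
    (hnL : n ∈ L) {σ : G} (hσ : ∀ x : V, σ • x - x ∈ L) : σ ∈ quotKer N hN := by
  have : FiniteDimensional k V := Module.finite_of_finrank_eq_succ h2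
  have hs : ∀ M : Submodule k V, M ≠ ⊤ → n ∈ M → Submodule.span k {n} = M := by
    intro M hM hnM
    apply Submodule.eq_of_le_of_finrank_le ((Submodule.span_singleton_le_iff_mem n M).2 hnM)
    have := Submodule.finrank_lt hM
    rw [finrank_span_singleton hn0]
    omega
  intro x
  rw [← hs N htop hn, hs L hLtop hnL]
  exact hσ x

end Abstract

end FLTAgent.GalChar
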