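import Mathlib.AlgebraicGeometry.EllipticCurve.DivisionPolynomial.Degree
import Fermat.Agent.Char.Rational
import Fermat.Agent.Char.Reducible
import Fermat.Prelude.Def_FLTPrelim_Modularity

/-!
# `x`-coordinates of a stable line in `E[p]`

For an integral Weierstrass curve and a Galois-stable line `N ⊆ E[p]`, the finite set of
`x`-coordinates of `N` is Galois stable.  We deduce that "`N` reduces injectively" does not depend
on the place over `p`, and that not all of `E[p]` reduces to the identity.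
-/

set_option autoImplicit false

namespace FLTAgent.GalChar

open WeierstrassCurve WeierstrassCurve.Affine

local notation "ℚbar" => AlgebraicClosure ℚ

variable {E : WeierstrassCurve ℚ} {p : ℕ}

/-- The `x`-coordinate of a point (`0` at infinity). -/
noncomputable def xc : (E⁄ℚbar).Point → ℚbar
  | .zero => 0
  | .some x _ _ => x

/-- The point reduces to the identity at `A`: it is `0` or its `x`-coordinate is not integral. -/
def InKer (A : ValuationSubring ℚbar) (P : (E⁄ℚbar).Point) : Prop :=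
  P = 0 ∨ xc P ∉ A

theorem inKer_some (A : ValuationSubring ℚbar) {x y : ℚbar}
    (h : (E⁄ℚbar).Nonsingular x y) : InKer A (Point.some x y h) ↔ x ∉ A := by
  exact ⟨fun hP => hP.resolve_left (Point.some_ne_zero h), Or.inr⟩

theorem xc_smul (σ : ℚbar ≃ₐ[ℚ] ℚbar) (P : (E⁄ℚbar).Point) : xc (σ • P) = σ (xc P) := by
  cases P with
  | zero => exact (map_zero σ).symm
  | some x y h => rfl

theorem eq_or_eq_neg_of_xc_eq {P Q : (E⁄ℚbar).Point} (hP : P ≠ 0) (hQ : Q ≠ 0)
    (h : xc P = xc Q) : P = Q ∨ P = -Q := by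
  cases P with
  | zero => exact absurd rfl hP
  | some x₁ y₁ h₁ =>
    cases Q with
    | zero => exact absurd rfl hQ
    | some x₂ y₂ h₂ =>
      change x₁ = x₂ at h
      subst h
      rcases Affine.Y_eq_of_X_eq h₁.1 h₂.1 rfl with hy | hy
      · left; subst hy; rfl
      · right; subst hy; rw [Point.neg_some]

instance smulCommClass_zmod (p : ℕ) :
    SMulCommClass (ℚbar ≃ₐ[ℚ] ℚbar) (ZMod p)
      (Submodule.torsionBy ℤ (E⁄ℚbar).Point p) :=
  ⟨fun σ c x => ZMod.map_smul (DistribSMul.toAddMonoidHom _ σ) c x⟩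

variable [Fact p.Prime]
  (N : Submodule (ZMod p) (Submodule.torsionBy ℤ (E⁄ℚbar).Point p))

theorem exists_finite_N (h2 : Module.finrank (ZMod p) (Submodule.torsionBy ℤ (E⁄ℚbar).Point p) = 2) :
    Finite N := by
  have : FiniteDimensional (ZMod p) (Submodule.torsionBy ℤ (E⁄ℚbar).Point p) :=
    Module.finite_of_finrank_eq_succ h2
  exact Module.finite_of_finite (ZMod p)

open scoped Classical in
/-- The `x`-coordinates of the nonzero points of `N`. -/
noncomputable def xSet [Finite N] : Finset ℚbar :=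
  have := Fintype.ofFinite N
  (Finset.univ.filter fun n : N => n ≠ 0).image
    fun n : N => xc n.1.1

theorem mem_xSet [Finite N] {r : ℚbar} : r ∈ xSet N ↔
    ∃ P : Submodule.torsionBy ℤ (E⁄ℚbar).Point p,
      P ∈ N ∧ P ≠ 0 ∧ xc (P : (E⁄ℚbar).Point) = r := by
  classical
  simp only [xSet, Finset.mem_image, Finset.mem_filter, Finset.mem_univ, true_and]
  constructor
  · rintro ⟨n, hn, rfl⟩
    exact ⟨n.1, n.2, fun h => hn (Subtype.ext h), rfl⟩
  · rintro ⟨P, hP, hP0, rfl⟩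
    exact ⟨⟨P, hP⟩, fun h => hP0 (congrArg Subtype.val h), rfl⟩

theorem xSet_stable [Finite N] (hN : Point.IsGaloisStable ℚ N) (σ : ℚbar ≃ₐ[ℚ] ℚbar) {r : ℚbar}
    (hr : r ∈ xSet N) : σ r ∈ xSet N := by
  obtain ⟨P, hP, hP0, rfl⟩ := (mem_xSet N).1 hr
  refine (mem_xSet N).2 ⟨σ • P, hN σ P hP, fun h => hP0 ?_, xc_smul σ _⟩
  rwa [smul_eq_zero_iff_eq] at h

/-- "Some nonzero point of `N` reduces to the identity" does not depend on the place. -/
theorem exists_inKer_iff [Finite N] (hN : Point.IsGaloisStable ℚ N) (hp : p.Prime)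
    {A A' : ValuationSubring ℚbar} (hA : A.LiesOverPrime p) (hA' : A'.LiesOverPrime p)
    (h : ∀ P ∈ N, InKer A (P : (E⁄ℚbar).Point) → P = 0) :
    ∀ P ∈ N, InKer A' (P : (E⁄ℚbar).Point) → P = 0 := by
  intro P hP hker
  by_contra hP0
  refine (hker.resolve_left fun h0 => hP0 (Subtype.ext h0)) ?_
  refine forall_mem_of_forall_mem hp hA hA' (xSet N) (fun σ r hr => xSet_stable N hN σ hr)
    (fun r hr => ?_) _ ((mem_xSet N).2 ⟨P, hP, hP0, rfl⟩)
  obtain ⟨Q, hQ, hQ0, rfl⟩ := (mem_xSet N).1 hr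
  by_contra hmem
  exact hQ0 (h Q hQ (Or.inr hmem))

/-- If all of `E[p]` reduced to the identity at a place over `p`, there would be no stable line
(the supersingular case).  `hψ` is the division polynomial criterion. -/
theorem exists_not_inKer (W : WeierstrassCurve ℤ) (hWE : W.map (Int.castRingHom ℚ) = E)
    [E.IsElliptic] (hp : p.Prime) (hp2 : p ≠ 2)
    (hψ : ∀ {x y : ℚbar} (h : (E⁄ℚbar).Nonsingular x y),
      (p : ℤ) • Point.some x y h = 0 ↔ ((E⁄ℚbar).ΨSq p).eval x = 0)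
    [Finite N] (hN : Point.IsGaloisStable ℚ N) (hbot : N ≠ ⊥) (htop : N ≠ ⊤)
    {A : ValuationSubring ℚbar} (hA : A.LiesOverPrime p) :
    ∃ P : Submodule.torsionBy ℤ (E⁄ℚbar).Point p, ¬ InKer A (P : (E⁄ℚbar).Point) := by
  by_contra hall
  push Not at hall
  have hodd : ¬ Even p := Nat.not_even_iff_odd.2 (hp.odd_of_ne_two hp2)
  -- the division polynomial
  set f := W.preΨ' p with hf
  have hmap : (E⁄ℚbar).preΨ' p = f.map (Int.castRingHom ℚbar) := by
    rw [hf, ← WeierstrassCurve.map_preΨ', ← hWE]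
    change ((W.map (Int.castRingHom ℚ)).map (algebraMap ℚ ℚbar)).preΨ' p = _
    rw [WeierstrassCurve.map_map, RingHom.ext_int ((algebraMap ℚ ℚbar).comp (Int.castRingHom ℚ))
      (Int.castRingHom ℚbar)]
  have hsq : ∀ x : ℚbar, ((E⁄ℚbar).ΨSq p).eval x = 0 ↔
      (f.map (Int.castRingHom ℚbar)).eval x = 0 := by
    intro x
    rw [WeierstrassCurve.ΨSq_ofNat, if_neg hodd, mul_one, Polynomial.eval_pow, hmap]
    exact pow_eq_zero_iff two_ne_zero
  -- `p`-torsion points are the roots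
  have hof : ∀ P : Submodule.torsionBy ℤ (E⁄ℚbar).Point p, P ≠ 0 →
      (f.map (Int.castRingHom ℚbar)).eval (xc (P : (E⁄ℚbar).Point)) = 0 := by
    intro P hP0
    obtain ⟨Q, hQ⟩ := P
    cases Q with
    | zero => exact absurd (Subtype.ext rfl) hP0
    | some x y h =>
      exact (hsq x).1 ((hψ h).1 ((Submodule.mem_torsionBy_iff _ _).1 hQ))
  have hroots : ∀ r : ℚbar, (f.map (Int.castRingHom ℚbar)).eval r = 0 → r ∉ A := by
    intro r hr
    obtain ⟨y, hy⟩ : ∃ y : ℚbar, (E⁄ℚbar).toAffine.Equation r y := by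
      obtain ⟨y, hy⟩ := IsAlgClosed.exists_root
        (Polynomial.C (1 : ℚbar) * Polynomial.X ^ 2
          + Polynomial.C ((E⁄ℚbar).a₁ * r + (E⁄ℚbar).a₃) * Polynomial.X
          + Polynomial.C (-(r ^ 3 + (E⁄ℚbar).a₂ * r ^ 2 + (E⁄ℚbar).a₄ * r + (E⁄ℚbar).a₆)))
        (by rw [Polynomial.degree_quadratic one_ne_zero]; decide)
      refine ⟨y, (Affine.equation_iff _ _).2 ?_⟩
      simp only [Polynomial.IsRoot, Polynomial.eval_add, Polynomial.eval_mul, Polynomial.eval_pow,
        Polynomial.eval_C, Polynomial.eval_X] at hy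
      linear_combination hy
    have : (E⁄ℚbar).IsElliptic := inferInstanceAs (E.map (algebraMap ℚ ℚbar)).IsElliptic
    have hns : (E⁄ℚbar).toAffine.Nonsingular r y := Affine.equation_iff_nonsingular.1 hy
    have hmem : Point.some r y hns ∈ Submodule.torsionBy ℤ (E⁄ℚbar).Point p :=
      (Submodule.mem_torsionBy_iff _ _).2 ((hψ hns).2 ((hsq r).2 hr))
    exact (inKer_some A hns).1 (hall ⟨_, hmem⟩)
  -- a point outside `N`
  obtain ⟨Q, -, hQN⟩ := SetLike.exists_of_lt (lt_top_iff_ne_top.2 htop)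
  have hQ0 : Q ≠ 0 := fun h => hQN (h ▸ N.zero_mem)
  obtain ⟨P₀, hP₀, hP₀0⟩ := Submodule.exists_mem_ne_zero_of_ne_bot hbot
  refine not_stable_proper_subset hp hA f ?_ hroots (xSet N) ⟨_, (mem_xSet N).2
    ⟨P₀, hP₀, hP₀0, rfl⟩⟩ ?_ (fun σ r hr => xSet_stable N hN σ hr)
    (xc (Q : (E⁄ℚbar).Point)) (hof Q hQ0) ?_
  · rw [hf, WeierstrassCurve.leadingCoeff_preΨ' _ (by exact_mod_cast hp.ne_zero), if_neg hodd]
  · intro r hr
    obtain ⟨P, -, hP0, rfl⟩ := (mem_xSet N).1 hr
    exact hof P hP0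
  · intro hQx
    obtain ⟨P, hP, hP0, hPx⟩ := (mem_xSet N).1 hQx
    rcases eq_or_eq_neg_of_xc_eq (fun h => hQ0 (Subtype.ext h)) (fun h => hP0 (Subtype.ext h))
      hPx.symm with h | h
    · exact hQN ((Subtype.ext h : Q = P) ▸ hP)
    · exact hQN ((Subtype.ext h : Q = -P) ▸ N.neg_mem hP)

end FLTAgent.GalChar
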