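import Mathlib.Algebra.Algebra.Rat
import Mathlib.RingTheory.Valuation.LocalSubring
import Mathlib.RingTheory.Polynomial.Content
import Mathlib.RingTheory.PrincipalIdealDomain
import Mathlib.FieldTheory.IsAlgClosed.AlgebraicClosure
import Fermat.Prelude.Def_FLTPrelim_Ramification

/-!
# Places of `ℚbar` and algebraic integers

* every element of a valuation subring of `ℚbar` is `b / s` with `b, s` algebraic integers and
  `s` a unit of the subring;
* every prime lies under some valuation subring;
* an automorphism congruent to the identity on algebraic integers lies in the inertia group.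
-/

set_option autoImplicit false

namespace FLTAgent.GalChar

open scoped Pointwise

local notation "ℚbar" => AlgebraicClosure ℚ

open Polynomial Finset

/-- Partial Horner sums `c_n x^k + ... + c_{n-k}`. -/
noncomputable def horner (f : ℤ[X]) (x : ℚbar) : ℕ → ℚbar
  | 0 => (f.leadingCoeff : ℚbar)
  | k + 1 => horner f x k * x + (f.coeff (f.natDegree - (k + 1)) : ℚbar)

theorem horner_eq_sum (f : ℤ[X]) (x : ℚbar) : ∀ k, k ≤ f.natDegree →
    horner f x k = ∑ i ∈ range (k + 1), (f.coeff (f.natDegree - k + i) : ℚbar) * x ^ i := by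
  intro k
  induction k with
  | zero => intro _; simp only [horner, zero_add, sum_range_one, pow_zero, mul_one, Nat.sub_zero, add_zero, leadingCoeff]
  | succ k ih =>
    intro hk
    rw [horner, ih (by omega), sum_range_succ' _ (k + 1)]
    simp only [add_zero, pow_zero, mul_one, sum_mul, pow_succ]
    congr 1
    refine sum_congr rfl fun i _ => ?_
    rw [show f.natDegree - (k + 1) + (i + 1) = f.natDegree - k + i by omega, mul_assoc]

theorem horner_natDegree (f : ℤ[X]) (x : ℚbar) : horner f x f.natDegree = aeval x f := by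
  rw [horner_eq_sum f x _ le_rfl, aeval_eq_sum_range]
  simp [zsmul_eq_mul]

theorem horner_mem {f : ℤ[X]} {x : ℚbar} (hx : aeval x f = 0) (B : ValuationSubring ℚbar)
    {k : ℕ} (hk : k ≤ f.natDegree) : horner f x k ∈ B := by
  by_cases hxB : x ∈ B
  · clear hk
    induction k with
    | zero => exact intCast_mem B _
    | succ k ih => exact add_mem (mul_mem ih hxB) (intCast_mem B _)
  · have hx0 : x ≠ 0 := fun h => hxB (h ▸ B.zero_mem)
    induction hd : f.natDegree - k generalizing k with
    | zero =>
      rw [show k = f.natDegree by omega, horner_natDegree, hx]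
      exact B.zero_mem
    | succ d ih =>
      have h := ih (k := k + 1) (by omega) (by omega)
      rw [show horner f x k
        = (horner f x (k + 1) - (f.coeff (f.natDegree - (k + 1)) : ℚbar)) * x⁻¹ by
          rw [horner]; field_simp; ring]
      exact mul_mem (sub_mem h (intCast_mem B _)) ((B.mem_or_inv_mem x).resolve_left hxB)

theorem isIntegral_of_forall_mem {x : ℚbar} (h : ∀ B : ValuationSubring ℚbar, x ∈ B) :
    IsIntegral ℤ x := by
  have hmem : x ∈ (integralClosure (Subring.closure (∅ : Set ℚbar)) ℚbar).toSubring := by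
    rw [← iInf_valuationSubring_superset]
    exact Subring.mem_iInf.2 fun V => h V.1
  obtain ⟨g, hgm, hg⟩ := (hmem : IsIntegral (Subring.closure (∅ : Set ℚbar)) x)
  have hbot : Subring.closure (∅ : Set ℚbar) = ⊥ := Subring.closure_empty
  have hlifts : g ∈ lifts (algebraMap ℤ (Subring.closure (∅ : Set ℚbar))) := by
    rw [lifts_iff_coeff_lifts]
    intro i
    obtain ⟨n, hn⟩ := Subring.mem_bot.1 (hbot.le (g.coeff i).2)
    exact ⟨n, Subtype.ext (by simpa using hn)⟩
  obtain ⟨G, hG, -, hGm⟩ := lifts_and_degree_eq_and_monic hlifts hgm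
  refine ⟨G, hGm, ?_⟩
  rw [← hG, eval₂_map] at hg
  rwa [RingHom.ext_int (algebraMap ℤ ℚbar)]

/-- Every element of a valuation subring is a quotient of algebraic integers with denominator a
unit of the subring. -/
theorem exists_isIntegral_div (A : ValuationSubring ℚbar) {x : ℚbar} (hx : x ∈ A) :
    ∃ b s : ℚbar, IsIntegral ℤ b ∧ IsIntegral ℤ s ∧ A.valuation s = 1 ∧ x * s = b := by
  obtain ⟨f₀, hf₀, hxf₀⟩ :=
    (IsFractionRing.isAlgebraic_iff ℤ ℚ ℚbar).2 ((AlgebraicClosure.isAlgebraic ℚ).isAlgebraic x)
  set f := f₀.primPart with hf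
  have hprim : f.IsPrimitive := f₀.isPrimitive_primPart
  have hxf : aeval x f = 0 := aeval_primPart_eq_zero hf₀ hxf₀
  have hint : ∀ k, k ≤ f.natDegree → IsIntegral ℤ (horner f x k) := fun k hk =>
    isIntegral_of_forall_mem fun B => horner_mem hxf B hk
  have hone : ∃ k ≤ f.natDegree, A.valuation (horner f x k) = 1 := by
    by_contra hcon
    push Not at hcon
    have hlt : ∀ k ≤ f.natDegree, A.valuation (horner f x k) < 1 := fun k hk =>
      lt_of_le_of_ne ((ValuationSubring.valuation_le_one_iff _ _).2 (horner_mem hxf A hk))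
        (hcon k hk)
    have hcoeff : ∀ i, A.valuation (f.coeff i : ℚbar) < 1 := by
      intro i
      rcases lt_trichotomy i f.natDegree with hi | hi | hi
      · have h := hlt (f.natDegree - i) (by omega)
        obtain ⟨j, hj⟩ : ∃ j, f.natDegree - i = j + 1 := ⟨f.natDegree - i - 1, by omega⟩
        rw [hj, horner, show f.natDegree - (j + 1) = i by omega] at h
        have h2 : A.valuation (horner f x j * x) < 1 := by
          rw [map_mul]
          exact (mul_le_of_le_one_right' ((ValuationSubring.valuation_le_one_iff _ _).2 hx)).trans_lt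
            (hlt j (by omega))
        simpa using lt_of_le_of_lt (A.valuation.map_sub _ _) (max_lt h h2)
      · rw [hi]
        exact hlt 0 (Nat.zero_le _)
      · rw [coeff_eq_zero_of_natDegree_lt hi]
        simp
    let I : Ideal ℤ := (IsLocalRing.maximalIdeal A).comap (Int.castRingHom A)
    have hI : ∀ i, f.coeff i ∈ I := fun i => by
      rw [Ideal.mem_comap, ← ValuationSubring.coe_mem_nonunits_iff,
        ValuationSubring.mem_nonunits_iff]
      simpa using hcoeff i
    obtain ⟨g, hg⟩ := IsPrincipalIdealRing.principal I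
    have hg' : C g ∣ f := (C_dvd_iff_dvd_coeff _ _).2 fun i => by
      rw [← Ideal.mem_span_singleton, ← Ideal.submodule_span_eq, ← hg]
      exact hI i
    have htop : I = ⊤ := hg.trans (Ideal.span_singleton_eq_top.2 (hprim g hg'))
    exact Ideal.IsPrime.ne_top (Ideal.comap_isPrime _ _) htop
  obtain ⟨k, hk, hk1⟩ := hone
  refine ⟨x * horner f x k, horner f x k, ?_, hint k hk, hk1, rfl⟩
  rcases hk.eq_or_lt with h | h
  · rw [h, horner_natDegree, hxf, mul_zero]
    exact isIntegral_zero
  · rw [show x * horner f x k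
      = horner f x (k + 1) - ((f.coeff (f.natDegree - (k + 1)) : ℤ) : ℚbar) by rw [horner]; ring]
    exact (hint (k + 1) h).sub (by
      rw [← eq_intCast (algebraMap ℤ ℚbar)]; exact isIntegral_algebraMap)

/-- Every prime number lies under a valuation subring of `ℚbar`. -/
theorem exists_valuationSubring_liesOverPrime {q : ℕ} (hq : q.Prime) :
    ∃ A : ValuationSubring ℚbar, A.LiesOverPrime q := by
  let I : Ideal (⊥ : Subring ℚbar) := Ideal.span {(q : (⊥ : Subring ℚbar))}
  have hI : I ≠ ⊤ := by
    rw [Ne, Ideal.span_singleton_eq_top, isUnit_iff_exists_inv]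
    rintro ⟨⟨y, hy⟩, hqy⟩
    obtain ⟨n, rfl⟩ := Subring.mem_bot.1 hy
    have h : ((q * n : ℤ) : ℚbar) = ((1 : ℤ) : ℚbar) := by
      push_cast
      simpa using congrArg Subtype.val hqy
    exact hq.one_lt.ne' (by
      exact_mod_cast Int.eq_one_of_mul_eq_one_right (by positivity) (Int.cast_injective h))
  obtain ⟨B, -, hB⟩ := Ideal.image_subset_nonunits_valuationSubring I hI
  exact ⟨B, hB ⟨(q : (⊥ : Subring ℚbar)), Ideal.subset_span rfl, by simp⟩⟩

/-- An automorphism congruent to the identity on algebraic integers is in the inertia group. -/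
theorem mem_inertiaSubgroupIn_of_congr (A : ValuationSubring ℚbar) (σ : ℚbar ≃ₐ[ℚ] ℚbar)
    (h : ∀ b : ℚbar, IsIntegral ℤ b → A.valuation (σ b - b) < 1) :
    σ ∈ A.inertiaSubgroupIn ℚ := by
  have key : ∀ τ : ℚbar ≃ₐ[ℚ] ℚbar, (∀ b : ℚbar, IsIntegral ℤ b → A.valuation (τ b - b) < 1) →
      ∀ x ∈ A, A.valuation (τ x - x) < 1 ∧ τ x ∈ A := by
    intro τ hτ x hx
    obtain ⟨b, s, hb, hs, hs1, hxs⟩ := exists_isIntegral_div A hx
    have hτs : A.valuation (τ s) = 1 := by
      have h' : A.valuation ((τ s - s) + s) = A.valuation s :=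
        A.valuation.map_add_eq_of_lt_right (by rw [hs1]; exact hτ s hs)
      rwa [sub_add_cancel, hs1] at h'
    have hτb : τ x * τ s = τ b := by rw [← map_mul, hxs]
    have hτx : A.valuation (τ x) ≤ 1 := by
      have h1 : A.valuation (τ b) ≤ 1 := by
        rw [← sub_add_cancel (τ b) b]
        refine (A.valuation.map_add _ _).trans (max_le (hτ b hb).le ?_)
        rw [← hxs, map_mul, hs1, mul_one]
        exact (ValuationSubring.valuation_le_one_iff _ _).2 hx
      rwa [← hτb, map_mul, hτs, mul_one] at h1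
    refine ⟨?_, (ValuationSubring.valuation_le_one_iff _ _).1 hτx⟩
    have e : (τ x - x) * s = (τ b - b) - τ x * (τ s - s) := by rw [← hτb, ← hxs]; ring
    have h2 : A.valuation (τ x * (τ s - s)) < 1 := by
      rw [map_mul]
      exact (mul_le_of_le_one_left' hτx).trans_lt (hτ s hs)
    have h3 := lt_of_le_of_lt (A.valuation.map_sub _ _) (max_lt (hτ b hb) h2)
    rw [← e, map_mul, hs1, mul_one] at h3
    exact h3
  have hinv : ∀ b : ℚbar, IsIntegral ℤ b → A.valuation (σ⁻¹ b - b) < 1 := by
    intro b hb
    have hb' : IsIntegral ℤ (σ⁻¹ b) := hb.map ((σ⁻¹ : ℚbar ≃ₐ[ℚ] ℚbar).toAlgHom.restrictScalars ℤ)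
    have h1 := h _ hb'
    rwa [show σ (σ⁻¹ b) = b from σ.apply_symm_apply b, A.valuation.map_sub_swap] at h1
  have hdec : σ ∈ A.decompositionSubgroup ℚ := by
    rw [MulAction.mem_stabilizer_iff]
    refine ValuationSubring.ext _ _ fun x => ?_
    rw [ValuationSubring.mem_pointwise_smul_iff_inv_smul_mem, AlgEquiv.smul_def]
    refine ⟨fun hx => ?_, fun hx => (key _ hinv x hx).2⟩
    have := (key σ h _ hx).2
    rwa [show σ (σ⁻¹ x) = x from σ.apply_symm_apply x] at this
  refine Subgroup.mem_map.2 ⟨⟨σ, hdec⟩, ?_, rfl⟩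
  refine MonoidHom.mem_ker.2 (RingEquiv.ext fun r => ?_)
  obtain ⟨a, rfl⟩ := IsLocalRing.residue_surjective r
  change (⟨σ, hdec⟩ : A.decompositionSubgroup ℚ) • IsLocalRing.residue A a = IsLocalRing.residue A a
  rw [← IsLocalRing.ResidueField.residue_smul]
  refine Ideal.Quotient.eq.2 ?_
  rw [← ValuationSubring.coe_mem_nonunits_iff, ValuationSubring.mem_nonunits_iff]
  exact (key σ h a a.2).1

end FLTAgent.GalChar
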