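import Fermat.Agent.Char.Curve
import Fermat.Agent.Char.IntegralPlace
import Fermat.Agent.Frey.Model
import Fermat.Agent.Reduction.GoodPrime

/-!
# A rational `p`-torsion point of the Frey curve cannot lie in `E₀` at `2`

Its multiples would reduce injectively to nonsingular `𝔽₂`-points of a cubic with a singular
point, of which there are at most `4` (with infinity).
-/

set_option autoImplicit false

namespace FLTAgent.GalChar

open WeierstrassCurve WeierstrassCurve.Affine IsLocalRing FLTAgent.Reduction

local notation "ℚbar" => AlgebraicClosure ℚ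

variable {A : ValuationSubring ℚbar}

/-- A rational number integral at `2` reduces to `0` or `1`. -/
theorem residue_eq_zero_or_one (hA : A.LiesOverPrime 2) {x : ℚbar} (hx : x ∈ A)
    (hfix : ∀ σ : ℚbar ≃ₐ[ℚ] ℚbar, σ x = x) :
    residue A ⟨x, hx⟩ = 0 ∨ residue A ⟨x, hx⟩ = 1 := by
  obtain ⟨r, rfl⟩ := exists_rat_of_fixed hfix
  have hden : ¬ 2 ∣ r.den := (rat_mem_iff hA Nat.prime_two r).1 hx
  have h2 : (2 : ResidueField A) = 0 := by
    exact_mod_cast (residue_natCast_eq_zero_iff hA Nat.prime_two 2).2 dvd_rfl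
  have h01 : ∀ m : ℤ, ((m : ResidueField A) = 0 ∨ (m : ResidueField A) = 1) := by
    intro m
    obtain ⟨k, rfl | rfl⟩ := Int.even_or_odd' m
    · left; push_cast; rw [h2, zero_mul]
    · right; push_cast; rw [h2, zero_mul, zero_add]
  have hd1 : (r.den : ResidueField A) = 1 := by
    refine (show ((r.den : ℤ) : ResidueField A) = 1 from ?_) ▸ (Int.cast_natCast r.den).symm
    rcases h01 r.den with h | h
    · rw [Int.cast_natCast] at h
      exact absurd ((residue_natCast_eq_zero_iff hA Nat.prime_two r.den).1 h) hden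
    · exact h
  have hmul : (⟨_, hx⟩ : A) * (r.den : A) = (r.num : A) := by
    refine Subtype.ext ?_
    push_cast
    rw [algebraMap_rat_eq_div, div_mul_cancel₀ _ (Nat.cast_ne_zero.2 r.den_nz)]
  have h := congrArg (residue A) hmul
  rw [map_mul, map_natCast, map_intCast, hd1, mul_one] at h
  rw [h]
  exact h01 r.num

/-- The reductions of rational points in `E₀` avoid `(0, 0)`. -/
theorem not_nonsingular_zero (P : FreyPackage) (hA : A.LiesOverPrime 2) :
    ¬ (redCurve (integralAt P.freyCurveInt A)).toAffine.Nonsingular 0 0 := by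
  rw [redCurve_integralAt, Affine.nonsingular_zero]
  rintro ⟨-, h | h⟩
  · exact h (by simp [Frey.freyCurveInt_a₃])
  · refine h ?_
    have h4 : (2 : ℤ) ∣ P.freyCurveInt.a₄ := by
      obtain ⟨k, hk⟩ := Frey.thirty_two_dvd_pow_b P
      have h4 := Frey.sixteen_mul_a₄ P
      rw [hk] at h4
      exact ⟨-(P.a ^ P.p) * k, by linarith⟩
    obtain ⟨m, hm⟩ := h4
    have h2 : (2 : ResidueField A) = 0 := by
      exact_mod_cast (residue_natCast_eq_zero_iff hA Nat.prime_two 2).2 dvd_rfl
    simp [hm, h2]

/-- No rational point of prime order `p ≥ 5` of the Frey curve lies in `E₀` at `2` together with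
all its multiples. -/
theorem not_forall_mem_zeroSubgroup (P : FreyPackage) (hA : A.LiesOverPrime 2)
    (R : (WQbar P.freyCurveInt).toAffine.Point) (hR0 : R ≠ 0) (hR : P.p • R = 0)
    (hfix : ∀ σ : ℚbar ≃ₐ[ℚ] ℚbar, σ • R = R)
    (hzero : R ∈ zeroSubgroup (integralAt P.freyCurveInt A)) : False := by
  classical
  have hp := P.pp
  have hp5 := P.hp5
  have hmem : ∀ j : ℕ, j • R ∈ zeroSubgroup (integralAt P.freyCurveInt A) := fun j =>
    nsmul_mem hzero j
  have hfixj : ∀ (j : ℕ) (σ : ℚbar ≃ₐ[ℚ] ℚbar), σ • (j • R) = j • R := fun j σ => by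
    have h := (DistribSMul.toAddMonoidHom (WQbar P.freyCurveInt).toAffine.Point σ).map_nsmul j R
    simp only [DistribSMul.toAddMonoidHom_apply] at h
    rw [h, hfix]
  have hqn : ¬ 2 ∣ P.p := fun h => by
    have := (Nat.prime_dvd_prime_iff_eq Nat.prime_two hp).1 h
    omega
  -- the possible reductions
  let code : (redCurve (integralAt P.freyCurveInt A)).toAffine.Point → Fin 4 := fun Q =>
    match Q with
    | .zero => 0
    | .some x y _ => if x = 0 then 1 else if y = 0 then 2 else 3
  have hcases : ∀ j : ℕ, redPt (integralAt P.freyCurveInt A) (j • R) = 0 ∨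
      ∃ a b h, redPt (integralAt P.freyCurveInt A) (j • R) = Point.some a b h ∧
        (a = 0 ∨ a = 1) ∧ (b = 0 ∨ b = 1) ∧ ¬ (a = 0 ∧ b = 0) := by
    intro j
    rcases InZero.cases (hmem j) with h1 | ⟨x, y, hxy, he, hns⟩
    · exact Or.inl (redPt_of_inOne _ h1)
    · have hf : ∀ σ : ℚbar ≃ₐ[ℚ] ℚbar, σ (x : ℚbar) = x ∧ σ (y : ℚbar) = y := fun σ => by
        have h := hfixj j σ
        rw [he] at h
        exact Point.some.inj h
      refine Or.inr ⟨_, _, hns, by rw [he]; exact redPt_coe _ hxy hns,
        residue_eq_zero_or_one hA x.2 fun σ => (hf σ).1,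
        residue_eq_zero_or_one hA y.2 fun σ => (hf σ).2, ?_⟩
      rintro ⟨hx0, hy0⟩
      rw [hx0, hy0] at hns
      exact not_nonsingular_zero P hA hns
  have hinj : Function.Injective
      fun j : Fin P.p => code (redPt (integralAt P.freyCurveInt A) (j.1 • R)) := by
    intro i j hij
    have hred : redPt (integralAt P.freyCurveInt A) (i.1 • R)
        = redPt (integralAt P.freyCurveInt A) (j.1 • R) := by
      simp only at hij
      rcases hcases i.1 with hi | ⟨a, b, h, hi, ha, hb, hab⟩ <;>
        rcases hcases j.1 with hj | ⟨a', b', h', hj, ha', hb', hab'⟩ <;>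
          rw [hi, hj] at hij ⊢
      · change (0 : Fin 4) = if _ then _ else _ at hij
        split_ifs at hij <;> exact absurd hij (by decide)
      · change (if _ then _ else _) = (0 : Fin 4) at hij
        split_ifs at hij <;> exact absurd hij (by decide)
      · change (if _ then _ else _) = (if _ then _ else _ : Fin 4) at hij
        rcases ha with rfl | rfl <;> rcases hb with rfl | rfl <;>
          rcases ha' with rfl | rfl <;> rcases hb' with rfl | rfl <;>
            simp_all
    have hP : i.1 • R = j.1 • R :=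
      redPt_injective_of_torsion hA Nat.prime_two hqn (hmem _) (hmem _)
        (by rw [← mul_nsmul, mul_comm, mul_nsmul, hR, nsmul_zero])
        (by rw [← mul_nsmul, mul_comm, mul_nsmul, hR, nsmul_zero]) hred
    have hord : addOrderOf R = P.p :=
      haveI := Fact.mk hp
      addOrderOf_eq_prime hR hR0
    refine Fin.ext ?_
    exact nsmul_injOn_Iio_addOrderOf (hord.symm ▸ i.2 : i.1 < addOrderOf R)
      (hord.symm ▸ j.2 : j.1 < addOrderOf R) hP
  have := Fintype.card_le_of_injective _ hinj
  simp only [Fintype.card_fin] at this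
  omega

end FLTAgent.GalChar
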