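import Fermat.Agent.Char.Local
import Fermat.Agent.Char.RationalTwo
import Fermat.Prelude.Def_FLTPrelim_CofixedLine

/-!
# A reducible Frey representation has a cofixed line, given the component facts
-/

set_option autoImplicit false

namespace FLTAgent.GalChar

open WeierstrassCurve WeierstrassCurve.Affine WeierstrassCurve.Affine.Point FLTAgent.Reduction

local notation "ℚbar" => AlgebraicClosure ℚ

/-- The two facts about component groups of the Frey curve that are needed. -/
structure FreyComponentFacts (P : FreyPackage) : Prop where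
  moves : InertiaMovesInZero P.freyCurveInt
  two : ∀ A : ValuationSubring ℚbar, A.LiesOverPrime 2 →
    ∀ R : (WQbar P.freyCurveInt).toAffine.Point, P.p • R = 0 →
      (∀ σ : ℚbar ≃ₐ[ℚ] ℚbar, σ • R = R) → R ∈ zeroSubgroup (integralAt P.freyCurveInt A)

theorem hasCofixedLine_int (P : FreyPackage) (H : FreyComponentFacts P)
    (hred : ¬ GaloisRepIsIrreducible (K := ℚbar) ℚ (P.freyCurveInt.map (Int.castRingHom ℚ)) P.p) :
    HasGaloisStableCofixedLine (K := ℚbar) ℚ (P.freyCurveInt.map (Int.castRingHom ℚ)) P.p := by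
  have := Fact.mk P.pp
  have hp2 : P.p ≠ 2 := by have := P.hp5; omega
  have hΔ := Frey.freyCurveInt_Δ_ne_zero P
  have : (P.freyCurveInt.map (Int.castRingHom ℚ)).IsElliptic :=
    ⟨by rw [WeierstrassCurve.map_Δ]; exact (Int.cast_ne_zero.2 hΔ : (_ : ℚ) ≠ 0).isUnit⟩
  have h2 := finrank_torsion (E := P.freyCurveInt.map (Int.castRingHom ℚ)) P.p
  have hnt : Nontrivial (Submodule.torsionBy ℤ
      ((P.freyCurveInt.map (Int.castRingHom ℚ))⁄ℚbar).Point P.p) :=
    Module.nontrivial_of_finrank_pos (R := ZMod P.p) (by omega)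
  unfold GaloisRepIsIrreducible at hred
  obtain ⟨N, hN⟩ := not_forall.1 fun h => hred ⟨hnt, h⟩
  rw [Classical.not_imp, not_or] at hN
  obtain ⟨hN, hbot, htop⟩ := hN
  rcases sub_trivial_or_quot_trivial_of_movesInZero H.moves hΔ hp2 N hN hbot htop with h | h
  · exfalso
    obtain ⟨R, hR, hR0⟩ := Submodule.exists_mem_ne_zero_of_ne_bot hbot
    obtain ⟨A, hA⟩ := exists_valuationSubring_liesOverPrime Nat.prime_two
    have hfix : ∀ σ : ℚbar ≃ₐ[ℚ] ℚbar,
        σ • (R : ((P.freyCurveInt.map (Int.castRingHom ℚ))⁄ℚbar).Point) = R :=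
      fun σ => congrArg Subtype.val (h σ R hR)
    have htor := nsmul_coe_torsionBy R
    exact not_forall_mem_zeroSubgroup P hA _ (fun h0 => hR0 (Subtype.ext h0)) htor hfix
      (H.two A hA _ htor hfix)
  · exact ⟨N, hN, hbot, htop, h⟩

theorem hasCofixedLine (P : FreyPackage) (H : FreyComponentFacts P)
    (hred : ¬ GaloisRepIsIrreducible (K := ℚbar) ℚ P.freyCurve P.p) :
    HasGaloisStableCofixedLine (K := ℚbar) ℚ P.freyCurve P.p := by
  rw [← Frey.freyCurveInt_map P] at hred ⊢
  exact hasCofixedLine_int P H hred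

end FLTAgent.GalChar
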