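import Mathlib.RingTheory.Invariant.Profinite
import Mathlib.FieldTheory.Galois.Profinite
import Mathlib.FieldTheory.Galois.Infinite
import Fermat.Agent.Char.IntegralPlace

/-!
# Lifting inertia from a finite Galois subextension of `ℚbar`

If `σ₀` moves the integers of a finite Galois subextension `K` only inside the centre of the place
`A`, then some element of the inertia group of `A` agrees with `σ₀` on `K`.
-/

set_option autoImplicit false

namespace FLTAgent.GalChar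

open scoped Pointwise

local notation "ℚbar" => AlgebraicClosure ℚ
local notation "ℤbar" => integralClosure ℤ (AlgebraicClosure ℚ)

/-- The action of the Galois group on the algebraic integers. -/
@[reducible] noncomputable def intGalAction : MulSemiringAction (ℚbar ≃ₐ[ℚ] ℚbar) ℤbar where
  smul σ b := ⟨σ (b : ℚbar), b.2.map (σ.toAlgHom.restrictScalars ℤ)⟩
  one_smul _ := rfl
  mul_smul _ _ _ := rfl
  smul_zero σ := Subtype.ext (map_zero σ)
  smul_add σ _ _ := Subtype.ext (map_add σ _ _)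
  smul_one σ := Subtype.ext (map_one σ)
  smul_mul σ _ _ := Subtype.ext (map_mul σ _ _)

theorem apply_mem_of_normal (K : IntermediateField ℚ ℚbar) [Normal ℚ K] (σ : ℚbar ≃ₐ[ℚ] ℚbar)
    {x : ℚbar} (hx : x ∈ K) : σ x ∈ K := by
  have h := AlgEquiv.restrictNormal_commutes σ K ⟨x, hx⟩
  change (σ.restrictNormal K ⟨x, hx⟩ : ℚbar) = σ x at h
  rw [← h]
  exact SetLike.coe_mem _

theorem valuation_le_one_of_isIntegral (A : ValuationSubring ℚbar) {b : ℚbar}
    (hb : IsIntegral ℤ b) : A.valuation b ≤ 1 := by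
  obtain ⟨a, ha⟩ := IsIntegrallyClosed.algebraMap_eq_of_integral (R := A) (K := ℚbar)
    (hb.tower_top (A := A))
  rw [← ha]
  exact A.valuation_le_one a

/-- The centre of `A` on the algebraic integers. -/
noncomputable def centreIdeal (A : ValuationSubring ℚbar) : Ideal ℤbar where
  carrier := {b | A.valuation (b : ℚbar) < 1}
  add_mem' {a b} ha hb := lt_of_le_of_lt (A.valuation.map_add _ _) (max_lt ha hb)
  zero_mem' := by simp
  smul_mem' c b hb := by
    change A.valuation ((c : ℚbar) * (b : ℚbar)) < 1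
    rw [map_mul]
    exact (mul_le_of_le_one_left' (valuation_le_one_of_isIntegral A c.2)).trans_lt hb

theorem mem_centreIdeal {A : ValuationSubring ℚbar} {b : ℤbar} :
    b ∈ centreIdeal A ↔ A.valuation (b : ℚbar) < 1 := Iff.rfl

instance (A : ValuationSubring ℚbar) : (centreIdeal A).IsPrime where
  ne_top' h := by
    have h1 : (1 : ℤbar) ∈ centreIdeal A := by rw [h]; exact Submodule.mem_top
    simp [mem_centreIdeal] at h1
  mem_or_mem' {a b} hab := by
    by_contra h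
    push Not at h
    simp only [mem_centreIdeal, not_lt] at h
    rw [mem_centreIdeal, show ((a * b : ℤbar) : ℚbar) = (a : ℚbar) * (b : ℚbar) from rfl,
      map_mul] at hab
    exact not_lt.2 (one_le_mul h.1 h.2) hab

/-- Every element of the inertia group at `A ∩ K` of a finite Galois extension `K/ℚ` lifts to
the inertia group of `A`. -/
theorem exists_mem_inertiaSubgroupIn_eq_on (A : ValuationSubring ℚbar)
    (K : IntermediateField ℚ ℚbar) [FiniteDimensional ℚ K] [Normal ℚ K]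
    (σ₀ : ℚbar ≃ₐ[ℚ] ℚbar)
    (h : ∀ x ∈ K, IsIntegral ℤ x → A.valuation (σ₀ x - x) < 1) :
    ∃ σ ∈ A.inertiaSubgroupIn ℚ, ∀ x ∈ K, σ x = σ₀ x := by
  let : MulSemiringAction (ℚbar ≃ₐ[ℚ] ℚbar) ℤbar := intGalAction
  let : TopologicalSpace ℤbar := ⊥
  have : DiscreteTopology ℤbar := ⟨rfl⟩
  have : IsAlgClosure ℚ ℚbar := ⟨inferInstance, AlgebraicClosure.isAlgebraic ℚ⟩
  have : Normal ℚ ℚbar := IsAlgClosure.normal ℚ ℚbar
  have : IsGalois ℚ ℚbar := ⟨⟩
  let N : Subgroup (ℚbar ≃ₐ[ℚ] ℚbar) := K.fixingSubgroup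
  have : CompactSpace N :=
    isCompact_iff_compactSpace.1 (IntermediateField.fixingSubgroup_isClosed K).isCompact
  have : SMulCommClass N ℤ ℤbar := ⟨fun τ n b => Subtype.ext (map_zsmul τ.1 n (b : ℚbar))⟩
  have : ContinuousSMul N ℤbar := by
    rw [continuousSMul_iff_stabilizer_isOpen]
    intro b
    have : (MulAction.stabilizer N b : Set N)
        = Subtype.val ⁻¹' (MulAction.stabilizer (ℚbar ≃ₐ[ℚ] ℚbar) (b : ℚbar) : Set _) := by
      ext τ
      exact Subtype.ext_iff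
    rw [this]
    exact (stabilizer_isOpen_of_isIntegral (K := ℚ) (b : ℚbar)).preimage continuous_subtype_val
  let A₀ : Subalgebra ℤ ℤbar := FixedPoints.subalgebra ℤ ℤbar N
  have : Algebra.IsInvariant A₀ ℤbar N := ⟨fun b hb => ⟨⟨b, hb⟩, rfl⟩⟩
  have : SMulCommClass N A₀ ℤbar := ⟨fun τ a b => by
    change τ • ((a : ℤbar) * b) = (a : ℤbar) * τ • b
    rw [smul_mul', a.2 τ]⟩
  let Q : Ideal ℤbar := centreIdeal A
  have hfixed : ∀ a : A₀, ((a : ℤbar) : ℚbar) ∈ K := by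
    intro a
    rw [← InfiniteGalois.fixedField_fixingSubgroup K, IntermediateField.mem_fixedField_iff]
    exact fun τ hτ => congrArg Subtype.val (a.2 ⟨τ, hτ⟩)
  have hcongr : ∀ a : A₀, σ₀ • (a : ℤbar) - (a : ℤbar) ∈ Q := fun a =>
    h _ (hfixed a) (a : ℤbar).2
  -- move `σ₀ • Q` back to `Q` by an element fixing `K`
  have hunder : (σ₀ • Q).under A₀ = Q.under A₀ := by
    refine Ideal.ext fun a => ?_
    change (a : ℤbar) ∈ σ₀ • Q ↔ (a : ℤbar) ∈ Q
    have hσa : σ₀ • (a : ℤbar) ∈ σ₀ • Q ↔ (a : ℤbar) ∈ Q := Ideal.smul_mem_pointwise_smul_iff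
    -- `σ₀⁻¹` is congruent to the identity on `A₀` as well
    have hinv : σ₀⁻¹ • (a : ℤbar) - (a : ℤbar) ∈ Q := by
      have hK : σ₀⁻¹ ((a : ℤbar) : ℚbar) ∈ K := apply_mem_of_normal K _ (hfixed a)
      have h' := h _ hK (σ₀⁻¹ • (a : ℤbar)).2
      rw [show σ₀ (σ₀⁻¹ ((a : ℤbar) : ℚbar)) = ((a : ℤbar) : ℚbar) from σ₀.apply_symm_apply _,
        A.valuation.map_sub_swap] at h'
      exact h'
    rw [Ideal.mem_pointwise_smul_iff_inv_smul_mem]
    constructor
    · intro h1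
      simpa using Q.sub_mem h1 hinv
    · intro h1
      simpa using Q.add_mem hinv h1
  obtain ⟨τ, hτ⟩ := Algebra.IsInvariant.exists_smul_of_under_eq_of_profinite
    (G := N) (σ₀ • Q) Q hunder
  let σ₂ : ℚbar ≃ₐ[ℚ] ℚbar := (τ : ℚbar ≃ₐ[ℚ] ℚbar) * σ₀
  have hσ₂Q : σ₂ • Q = Q := by
    rw [mul_smul]
    exact hτ.symm
  have hσ₂K : ∀ x ∈ K, σ₂ x = σ₀ x := by
    intro x hx
    have hmem : σ₀ x ∈ K := apply_mem_of_normal K σ₀ hx
    exact (IntermediateField.mem_fixingSubgroup_iff K _).1 τ.2 _ hmem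
  -- the induced automorphism of the residue ring over `A₀`
  let e : (ℤbar ⧸ Q) ≃ₐ[A₀ ⧸ Q.under A₀] (ℤbar ⧸ Q) :=
    AlgEquiv.ofRingEquiv (f := Ideal.quotientEquiv Q Q
      (MulSemiringAction.toRingEquiv (ℚbar ≃ₐ[ℚ] ℚbar) ℤbar σ₂) hσ₂Q.symm) fun z => by
      obtain ⟨a, rfl⟩ := Ideal.Quotient.mk_surjective z
      change Ideal.Quotient.mk Q (σ₂ • (a : ℤbar)) = Ideal.Quotient.mk Q (a : ℤbar)
      rw [Ideal.Quotient.eq, show σ₂ • (a : ℤbar) = σ₀ • (a : ℤbar) from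
        Subtype.ext (hσ₂K _ (hfixed a))]
      exact hcongr a
  obtain ⟨⟨ρ, hρ⟩, hρe⟩ :=
    Ideal.Quotient.stabilizerHom_surjective_of_profinite (G := N) (Q.under A₀) Q e
  refine ⟨(ρ : ℚbar ≃ₐ[ℚ] ℚbar)⁻¹ * σ₂,
    mem_inertiaSubgroupIn_of_congr A _ fun b hb => ?_, fun x hx => ?_⟩
  · let B : ℤbar := ⟨b, hb⟩
    have h1 : ρ • B - σ₂ • B ∈ Q :=
      Ideal.Quotient.eq.1 (AlgEquiv.congr_fun hρe (Ideal.Quotient.mk Q B))
    have h2 : ρ⁻¹ • (σ₂ • B) - B ∈ Q := by
      have h3 := Ideal.smul_mem_pointwise_smul (ρ⁻¹ : N) _ Q h1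
      have hinv : (ρ⁻¹ : N) • Q = Q := inv_smul_eq_iff.2 (MulAction.mem_stabilizer_iff.1 hρ).symm
      erw [hinv] at h3
      rw [smul_sub, inv_smul_smul] at h3
      simpa using Q.neg_mem h3
    exact h2
  · change (ρ : ℚbar ≃ₐ[ℚ] ℚbar)⁻¹ (σ₂ x) = σ₀ x
    rw [hσ₂K x hx]
    have hmem : σ₀ x ∈ K := apply_mem_of_normal K σ₀ hx
    exact (IntermediateField.mem_fixingSubgroup_iff K _).1 (ρ⁻¹).2 _ hmem

end FLTAgent.GalChar
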