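import Fermat.Agent.Char.Curve

/-!
# A stable line in `E[p]`: all inertia lies in one of the two kernels

Given the local behaviour of inertia (unipotent away from `p`; at `p` a filtration
`E₁[p] ≤ E₀[p]` with trivial action on the successive quotients above `E₁[p]`), every inertia
group is contained in `subKer N`, or every one is contained in `quotKer N`.
-/

set_option autoImplicit false

namespace FLTAgent.GalChar

open WeierstrassCurve WeierstrassCurve.Affine

local notation "ℚbar" => AlgebraicClosure ℚ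

variable {G k V : Type*} [Group G] [Field k] [AddCommGroup V] [Module k V]
  [DistribMulAction G V] {N : Submodule k V}

/-- Two step filtration `L₁ ≤ L₀` at `p`, case `N ⊓ L₁ = ⊥`. -/
theorem mem_subKer_of_filtration (hN : ∀ σ : G, ∀ x ∈ N, σ • x ∈ N) (h2 : Module.finrank k V = 2)
    (htop : N ≠ ⊤) (L₀ L₁ : Submodule k V) (hdis : ∀ x ∈ N, x ∈ L₁ → x = 0) {σ : G}
    (h0 : ∀ x : V, σ • x - x ∈ L₀) (h1 : ∀ x ∈ L₀, σ • x - x ∈ L₁) : σ ∈ subKer N := by
  intro x hx
  have hd : σ • x - x ∈ N := N.sub_mem (hN σ x hx) hx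
  by_cases hd0 : σ • x - x = 0
  · exact sub_eq_zero.1 hd0
  by_cases hxL : x ∈ L₀
  · exact sub_eq_zero.1 (hdis _ hd (h1 x hxL))
  -- `σ • x - x` spans `N` and lies in `L₀`
  have : FiniteDimensional k V := Module.finite_of_finrank_eq_succ h2
  have hspan : Submodule.span k {σ • x - x} = N := by
    apply Submodule.eq_of_le_of_finrank_le ((Submodule.span_singleton_le_iff_mem _ N).2 hd)
    have := Submodule.finrank_lt htop
    rw [finrank_span_singleton hd0]
    omega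
  exact absurd ((hspan ▸ (Submodule.span_singleton_le_iff_mem _ L₀).2 (h0 x) : N ≤ L₀) hx) hxL

/-- Two step filtration `L₁ ≤ L₀` at `p`, case `N ⊓ L₁ ≠ ⊥`. -/
theorem mem_quotKer_of_filtration (hN : ∀ σ : G, ∀ x ∈ N, σ • x ∈ N)
    (h2 : Module.finrank k V = 2) (htop : N ≠ ⊤) (L₀ L₁ : Submodule k V) (hle : L₁ ≤ L₀)
    (hL₁ : L₁ ≠ ⊤) {n : V} (hn : n ∈ N) (hn0 : n ≠ 0) (hnL : n ∈ L₁) {σ : G}
    (h0 : ∀ x : V, σ • x - x ∈ L₀) (h1 : ∀ x ∈ L₀, σ • x - x ∈ L₁) : σ ∈ quotKer N hN := by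
  rcases eq_or_ne L₀ ⊤ with h | h
  · exact mem_quotKer_of_le h2 hN htop L₁ hL₁ hn hn0 hnL fun x => h1 x (h ▸ Submodule.mem_top)
  · exact mem_quotKer_of_le h2 hN htop L₀ h hn hn0 (hle hnL) h0

variable {E : WeierstrassCurve ℚ} {p : ℕ} [Fact p.Prime]
  (N : Submodule (ZMod p) (Submodule.torsionBy ℤ (E⁄ℚbar).Point p))

/-- The local input at a place `A` over `p`. -/
structure FiltrationAt (A : ValuationSubring ℚbar) where
  zero : AddSubgroup (E⁄ℚbar).Point
  one : AddSubgroup (E⁄ℚbar).Point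
  mem_one : ∀ P, P ∈ one ↔ InKer A P
  one_le : one ≤ zero
  sub_mem_zero : ∀ σ ∈ A.inertiaSubgroupIn ℚ,
    ∀ x : Submodule.torsionBy ℤ (E⁄ℚbar).Point p,
      σ • (x : (E⁄ℚbar).Point) - (x : (E⁄ℚbar).Point) ∈ zero
  sub_mem_one : ∀ σ ∈ A.inertiaSubgroupIn ℚ,
    ∀ x : Submodule.torsionBy ℤ (E⁄ℚbar).Point p, (x : (E⁄ℚbar).Point) ∈ zero →
      σ • (x : (E⁄ℚbar).Point) - (x : (E⁄ℚbar).Point) ∈ one

/-- The `p`-torsion part of a subgroup of points, as a `ZMod p`-subspace. -/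
noncomputable def torsionPart (H : AddSubgroup (E⁄ℚbar).Point) :
    Submodule (ZMod p) (Submodule.torsionBy ℤ (E⁄ℚbar).Point p) :=
  AddSubgroup.toZModSubmodule p (H.comap (Submodule.torsionBy ℤ (E⁄ℚbar).Point p).toAddSubgroup.subtype)

theorem mem_torsionPart {H : AddSubgroup (E⁄ℚbar).Point}
    {x : Submodule.torsionBy ℤ (E⁄ℚbar).Point p} :
    x ∈ torsionPart H ↔ (x : (E⁄ℚbar).Point) ∈ H := by
  rfl

/-- All inertia groups lie in the kernel of the sub-character, or all in the kernel of the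
quotient character. -/
theorem inertia_le_subKer_or_le_quotKer (W : WeierstrassCurve ℤ)
    (hWE : W.map (Int.castRingHom ℚ) = E) [E.IsElliptic] (hp2 : p ≠ 2)
    (h2 : Module.finrank (ZMod p) (Submodule.torsionBy ℤ (E⁄ℚbar).Point p) = 2)
    (hψ : ∀ {x y : ℚbar} (h : (E⁄ℚbar).Nonsingular x y),
      (p : ℤ) • Point.some x y h = 0 ↔ ((E⁄ℚbar).ΨSq p).eval x = 0)
    (huni : ∀ (q : ℕ), q.Prime → q ≠ p → ∀ A : ValuationSubring ℚbar, A.LiesOverPrime q →
      ∀ σ ∈ A.inertiaSubgroupIn ℚ, ∀ x : Submodule.torsionBy ℤ (E⁄ℚbar).Point p,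
        σ • (σ • x - x) = σ • x - x)
    (hfil : ∀ A : ValuationSubring ℚbar, A.LiesOverPrime p →
      Nonempty (FiltrationAt (E := E) (p := p) A))
    (hN : Point.IsGaloisStable ℚ N) (hbot : N ≠ ⊥) (htop : N ≠ ⊤) :
    (∀ q : ℕ, q.Prime → ∀ A : ValuationSubring ℚbar, A.LiesOverPrime q →
        A.inertiaSubgroupIn ℚ ≤ subKer N) ∨
    (∀ q : ℕ, q.Prime → ∀ A : ValuationSubring ℚbar, A.LiesOverPrime q →
        A.inertiaSubgroupIn ℚ ≤ quotKer N hN) := by
  have hp : p.Prime := Fact.out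
  have : Finite N := exists_finite_N N h2
  have hne : ∀ q : ℕ, q.Prime → q ≠ p → ∀ A : ValuationSubring ℚbar, A.LiesOverPrime q →
      ∀ σ ∈ A.inertiaSubgroupIn ℚ, σ ∈ subKer N ∧ σ ∈ quotKer N hN :=
    fun q hq hqp A hA σ hσ => mem_ker_of_unipotent h2 hN hbot htop (huni q hq hqp A hA σ hσ)
  by_cases hex : ∃ A₀ : ValuationSubring ℚbar, A₀.LiesOverPrime p ∧
      ∀ P ∈ N, InKer A₀ (P : (E⁄ℚbar).Point) → P = 0
  · obtain ⟨A₀, hA₀, hdis⟩ := hex
    refine Or.inl fun q hq A hA σ hσ => ?_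
    by_cases hqp : q = p
    · subst hqp
      obtain ⟨F⟩ := hfil A hA
      refine mem_subKer_of_filtration hN h2 htop (torsionPart F.zero) (torsionPart F.one)
        (fun x hx hx1 => ?_) (fun x => ?_) (fun x hx => ?_)
      · exact exists_inKer_iff N hN hp hA₀ hA hdis x hx
          ((F.mem_one _).1 (mem_torsionPart.1 hx1))
      · exact mem_torsionPart.2 (F.sub_mem_zero σ hσ x)
      · exact mem_torsionPart.2 (F.sub_mem_one σ hσ x (mem_torsionPart.1 hx))
    · exact (hne q hq hqp A hA σ hσ).1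
  · refine Or.inr fun q hq A hA σ hσ => ?_
    by_cases hqp : q = p
    · subst hqp
      obtain ⟨F⟩ := hfil A hA
      simp only [not_exists, not_and, not_forall] at hex
      obtain ⟨n, hn, hker, hn0⟩ := hex A hA
      obtain ⟨P, hP⟩ := exists_not_inKer N W hWE hp hp2 hψ hN hbot htop hA
      refine mem_quotKer_of_filtration hN h2 htop (torsionPart F.zero) (torsionPart F.one)
        (fun x hx => mem_torsionPart.2 (F.one_le (mem_torsionPart.1 hx)))
        (fun h => hP ((F.mem_one _).1 (mem_torsionPart.1 (h ▸ Submodule.mem_top))))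
        hn hn0 (mem_torsionPart.2 ((F.mem_one _).2 hker)) (fun x => ?_) (fun x hx => ?_)
      · exact mem_torsionPart.2 (F.sub_mem_zero σ hσ x)
      · exact mem_torsionPart.2 (F.sub_mem_one σ hσ x (mem_torsionPart.1 hx))
    · exact (hne q hq hqp A hA σ hσ).2

end FLTAgent.GalChar
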