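import Fermat.Agent.Char.Main
import Fermat.Agent.Reduction.GoodPrime

/-!
# Local inputs for a semistable integral model

Unipotence of inertia away from `p` and the two step filtration at `p`, from the statement that
inertia at a multiplicative prime moves points only inside `E₀`.
-/

set_option autoImplicit false

namespace FLTAgent.GalChar

open WeierstrassCurve WeierstrassCurve.Affine FLTAgent.Reduction

local notation "ℚbar" => AlgebraicClosure ℚ

variable (W : WeierstrassCurve ℤ) {p : ℕ} [Fact p.Prime]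

/-- Inertia at a multiplicative prime moves points only inside `E₀`. -/
def InertiaMovesInZero : Prop :=
  ∀ q : ℕ, q.Prime → (q : ℤ) ∣ W.Δ → ∀ A : ValuationSubring ℚbar, A.LiesOverPrime q →
    ∀ σ ∈ A.inertiaSubgroupIn ℚ, ∀ P : (WQbar W).toAffine.Point,
      σ • P - P ∈ zeroSubgroup (integralAt W A)

variable {W}

theorem smul_sub_mem_zero (h : InertiaMovesInZero W) {q : ℕ} (hq : q.Prime)
    {A : ValuationSubring ℚbar} (hA : A.LiesOverPrime q) {σ : ℚbar ≃ₐ[ℚ] ℚbar}
    (hσ : σ ∈ A.inertiaSubgroupIn ℚ) (P : (WQbar W).toAffine.Point) :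
    σ • P - P ∈ zeroSubgroup (integralAt W A) := by
  by_cases hbad : (q : ℤ) ∣ W.Δ
  · exact h q hq hbad A hA σ hσ P
  · rw [zeroSubgroup_eq_top_of_good hA hq hbad]
    trivial

theorem inertia_unipotent_torsion (h : InertiaMovesInZero W) {q : ℕ} (hq : q.Prime) (hqp : q ≠ p)
    {A : ValuationSubring ℚbar} (hA : A.LiesOverPrime q) {σ : ℚbar ≃ₐ[ℚ] ℚbar}
    (hσ : σ ∈ A.inertiaSubgroupIn ℚ)
    (x : Submodule.torsionBy ℤ ((W.map (Int.castRingHom ℚ))⁄ℚbar).Point p) :
    σ • (σ • x - x) = σ • x - x := by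
  have hqn : ¬ q ∣ p := fun hd =>
    hqp ((Nat.prime_dvd_prime_iff_eq hq (Fact.out : p.Prime)).1 hd)
  refine Subtype.ext ?_
  exact smul_eq_of_mem_zeroSubgroup hA hq hqn hσ (smul_sub_mem_zero h hq hA hσ _)
    (nsmul_coe_torsionBy (σ • x - x))

/-- The filtration `E₁ ≤ E₀` at `p`. -/
noncomputable def filtrationAt (h : InertiaMovesInZero W) {A : ValuationSubring ℚbar}
    (hA : A.LiesOverPrime p) :
    FiltrationAt (E := W.map (Int.castRingHom ℚ)) (p := p) A where
  zero := zeroSubgroup (integralAt W A)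
  one := oneSubgroup (integralAt W A)
  mem_one P := by
    cases P with
    | zero => exact iff_of_true trivial (Or.inl rfl)
    | some x y hxy => exact (inKer_some A hxy).symm
  one_le := oneSubgroup_le _
  sub_mem_zero σ hσ x := smul_sub_mem_zero h Fact.out hA hσ _
  sub_mem_one σ hσ x hx := smul_sub_mem_oneSubgroup hσ hx

/-- For a semistable integral model, one of the two characters of a stable line in `E[p]` is
trivial, given that inertia at the bad primes moves points only inside `E₀`. -/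
theorem sub_trivial_or_quot_trivial_of_movesInZero (h : InertiaMovesInZero W) (hΔ : W.Δ ≠ 0)
    (hp2 : p ≠ 2)
    (N : Submodule (ZMod p) (Submodule.torsionBy ℤ ((W.map (Int.castRingHom ℚ))⁄ℚbar).Point p))
    (hN : Point.IsGaloisStable ℚ N) (hbot : N ≠ ⊥) (htop : N ≠ ⊤) :
    (∀ σ : ℚbar ≃ₐ[ℚ] ℚbar, ∀ x ∈ N, σ • x = x) ∨
      (∀ (σ : ℚbar ≃ₐ[ℚ] ℚbar)
        (x : Submodule.torsionBy ℤ ((W.map (Int.castRingHom ℚ))⁄ℚbar).Point p), σ • x - x ∈ N) := by
  have : (W.map (Int.castRingHom ℚ)).IsElliptic :=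
    ⟨by rw [WeierstrassCurve.map_Δ]; exact (Int.cast_ne_zero.2 hΔ : (W.Δ : ℚ) ≠ 0).isUnit⟩
  exact sub_trivial_or_quot_trivial_of_local N W rfl hp2
    (fun q hq hqp A hA σ hσ x => inertia_unipotent_torsion h hq hqp hA hσ x)
    (fun A hA => ⟨filtrationAt h hA⟩) hN hbot htop

end FLTAgent.GalChar
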