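import Mathlib.NumberTheory.NumberField.ExistsRamified
import Mathlib.NumberTheory.NumberField.Basic
import Fermat.Agent.Char.InertiaLift

/-!
# No unramified extension of `ℚ`, Galois-group form

An open normal subgroup of the absolute Galois group of `ℚ` containing every inertia group is
everything.
-/

set_option autoImplicit false

namespace FLTAgent.GalChar

open scoped NumberField Pointwise

local notation "ℚbar" => AlgebraicClosure ℚ

/-- For a finite Galois extension `K/ℚ` inside `ℚbar`, if every inertia group fixes `K` then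
`K = ℚ`. -/
theorem eq_bot_of_inertia_le_fixingSubgroup (K : IntermediateField ℚ ℚbar)
    [FiniteDimensional ℚ K] [IsGalois ℚ K]
    (hI : ∀ q : ℕ, q.Prime → ∀ A : ValuationSubring ℚbar, A.LiesOverPrime q →
      A.inertiaSubgroupIn ℚ ≤ K.fixingSubgroup) : K = ⊥ := by
  have : NumberField K := { to_finiteDimensional := inferInstance }
  have : IsAlgClosure ℚ ℚbar := ⟨inferInstance, AlgebraicClosure.isAlgebraic ℚ⟩
  have : Normal ℚ ℚbar := IsAlgClosure.normal ℚ ℚbar
  rw [← IntermediateField.finrank_eq_one_iff]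
  by_contra hne
  have hlt : 1 < Module.finrank ℚ K := by
    have := Module.finrank_pos (R := ℚ) (M := K)
    omega
  obtain ⟨p, hp, hram⟩ :=
    NumberField.exists_not_isUnramifiedAt_int_of_isGalois (𝒪 := 𝓞 K) (K := K) hlt
  obtain ⟨A, hA⟩ := exists_valuationSubring_liesOverPrime hp
  let ι : 𝓞 K →+* integralClosure ℤ ℚbar :=
    { toFun := fun x => ⟨((x : K) : ℚbar), (NumberField.RingOfIntegers.isIntegral_coe x).map
        (K.val.restrictScalars ℤ)⟩
      map_one' := rfl
      map_mul' := fun _ _ => rfl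
      map_zero' := rfl
      map_add' := fun _ _ => rfl }
  let P : Ideal (𝓞 K) := (centreIdeal A).comap ι
  have hP : P.IsPrime := Ideal.comap_isPrime _ _
  have hpP : (p : 𝓞 K) ∈ P := by
    rw [Ideal.mem_comap, map_natCast, mem_centreIdeal]
    exact (ValuationSubring.mem_nonunits_iff _).1 hA
  refine hram P hP hpP ?_
  have hp0 : (Ideal.span {(p : ℤ)}).IsPrime :=
    (Ideal.span_singleton_prime (by exact_mod_cast hp.ne_zero)).2 (Nat.prime_iff_prime_int.1 hp)
  have hover : P.LiesOver (Ideal.span {(p : ℤ)}) := by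
    refine (Ideal.liesOver_span_iff hP.ne_top (Nat.prime_iff_prime_int.1 hp)).2 ?_
    rwa [map_natCast]
  let : MulSemiringAction Gal(K/ℚ) (𝓞 K) := IsIntegralClosure.MulSemiringAction ℤ ℚ K (𝓞 K)
  have := IsGaloisGroup.of_isFractionRing Gal(K/ℚ) ℤ (𝓞 K) ℚ K
  have hcard : Nat.card (P.inertia Gal(K/ℚ)) = 1 := by
    rw [Subgroup.card_eq_one]
    refine (Subgroup.eq_bot_iff_forall _).2 fun g hg => ?_
    obtain ⟨σ₀, hσ₀⟩ := AlgEquiv.restrictNormalHom_surjective (F := ℚ) (K₁ := K) ℚbar g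
    have hg' : ∀ x : K, σ₀ (x : ℚbar) = ((g x : K) : ℚbar) := fun x => by
      rw [← hσ₀]
      exact (AlgEquiv.restrictNormal_commutes σ₀ K x).symm
    obtain ⟨σ, hσ, hσK⟩ := exists_mem_inertiaSubgroupIn_eq_on A K σ₀ fun x hx hxi => by
      have hxi' : IsIntegral ℤ (⟨x, hx⟩ : K) :=
        (isIntegral_algHom_iff (K.val.restrictScalars ℤ) Subtype.val_injective).1 hxi
      obtain ⟨z, hz⟩ : ∃ z : 𝓞 K, (z : K) = ⟨x, hx⟩ := ⟨⟨⟨x, hx⟩, hxi'⟩, rfl⟩
      have h := hg z
      rw [Submodule.mem_toAddSubgroup, Ideal.mem_comap, mem_centreIdeal] at h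
      have hsmul : (((g • z : 𝓞 K) : K)) = g ⟨x, hx⟩ :=
        hz ▸ algebraMap_galRestrict_apply (B := 𝓞 K) ℤ (g : K ≃ₐ[ℚ] K) z
      rw [hg' ⟨x, hx⟩]
      change A.valuation ((((g • z - z : 𝓞 K) : K) : ℚbar)) < 1 at h
      rw [show ((g • z - z : 𝓞 K) : K) = ((g • z : 𝓞 K) : K) - (z : K) from rfl,
        AddSubgroupClass.coe_sub, hsmul, hz] at h
      exact h
    refine AlgEquiv.ext fun x => Subtype.ext ?_
    rw [← hg' x, ← hσK x x.2]
    exact (IntermediateField.mem_fixingSubgroup_iff K σ).1 (hI p hp A hA hσ) x x.2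
  have : PerfectField (Ideal.span {(p : ℤ)}).ResidueField := inferInstance
  rw [Ideal.card_inertia_eq_ramificationIdxIn (Ideal.span {(p : ℤ)}) P,
    Ideal.ramificationIdxIn_eq_ramificationIdx _ P Gal(K/ℚ)] at hcard
  rw [← Ideal.ramificationIdx_eq_one_iff]
  exact hcard

/-- A normal subgroup of `G_ℚ` that contains the fixing group of a number field and every inertia
group is the whole group. -/
theorem eq_top_of_inertia_le (H : Subgroup (ℚbar ≃ₐ[ℚ] ℚbar)) [H.Normal]
    (L : IntermediateField ℚ ℚbar) [FiniteDimensional ℚ L] (hL : L.fixingSubgroup ≤ H)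
    (hI : ∀ q : ℕ, q.Prime → ∀ A : ValuationSubring ℚbar, A.LiesOverPrime q →
      A.inertiaSubgroupIn ℚ ≤ H) : H = ⊤ := by
  have : IsAlgClosure ℚ ℚbar := ⟨inferInstance, AlgebraicClosure.isAlgebraic ℚ⟩
  have : Normal ℚ ℚbar := IsAlgClosure.normal ℚ ℚbar
  have : IsGalois ℚ ℚbar := ⟨⟩
  have hopen : IsOpen (H : Set (ℚbar ≃ₐ[ℚ] ℚbar)) :=
    Subgroup.isOpen_mono hL L.fixingSubgroup_isOpen
  let Hc : ClosedSubgroup (ℚbar ≃ₐ[ℚ] ℚbar) :=
    { H with isClosed' := H.isClosed_of_isOpen hopen }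
  set K := IntermediateField.fixedField H
  have hK : K.fixingSubgroup = H := InfiniteGalois.fixingSubgroup_fixedField Hc
  obtain ⟨hfin, hgal⟩ := (InfiniteGalois.isOpen_and_normal_iff_finite_and_isGalois K).1
    ⟨(congrArg (fun S : Subgroup (ℚbar ≃ₐ[ℚ] ℚbar) => IsOpen (S : Set (ℚbar ≃ₐ[ℚ] ℚbar))) hK).mpr
      hopen, hK.symm ▸ ‹H.Normal›⟩
  have : IsGalois ℚ K := by
    convert hgal
    exact Subsingleton.elim _ _
  have hbot : K = ⊥ := eq_bot_of_inertia_le_fixingSubgroup K (by rw [hK]; exact hI)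
  rw [← hK, hbot, IntermediateField.fixingSubgroup_bot]

end FLTAgent.GalChar
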