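import Fermat.Agent.Char.Line
import Fermat.Agent.Char.Unramified
import Fermat.Agent.Torsion.Count

/-!
# One of the two characters of a reducible `E[p]` is trivial

`sub_trivial_or_quot_trivial_of_local` is stated relative to the local inputs (unipotent inertia
away from `p`, the filtration at `p`).
-/

set_option autoImplicit false

namespace FLTAgent.GalChar

open WeierstrassCurve WeierstrassCurve.Affine

local notation "ℚbar" => AlgebraicClosure ℚ

variable {E : WeierstrassCurve ℚ}

instance isElliptic_qbar [E.IsElliptic] : (E⁄ℚbar).IsElliptic :=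
  inferInstanceAs (E.map (algebraMap ℚ ℚbar)).IsElliptic

theorem finrank_torsion [E.IsElliptic] (p : ℕ) [Fact p.Prime] :
    Module.finrank (ZMod p) (Submodule.torsionBy ℤ (E⁄ℚbar).Point p) = 2 := by
  have hp : p.Prime := Fact.out
  have hp0 : (p : ℚbar) ≠ 0 := Nat.cast_ne_zero.2 hp.ne_zero
  have hcard := FLTAgent.Torsion.natCard_torsionBy (W := (E⁄ℚbar).toAffine) p hp0
  have : Finite (Submodule.torsionBy ℤ (E⁄ℚbar).Point p) :=
    Nat.finite_of_card_ne_zero (by rw [hcard]; exact pow_ne_zero _ hp.ne_zero)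
  have h := Module.natCard_eq_pow_finrank (K := ZMod p)
    (V := Submodule.torsionBy ℤ (E⁄ℚbar).Point p)
  rw [hcard, Nat.card_zmod] at h
  exact (Nat.pow_right_injective hp.two_le h).symm

variable {p : ℕ}

/-- The stabiliser of a point contains the fixing group of a number field. -/
theorem exists_field_fixing_point (P : (E⁄ℚbar).Point) :
    ∃ L : IntermediateField ℚ ℚbar, FiniteDimensional ℚ L ∧
      ∀ σ ∈ L.fixingSubgroup, σ • P = P := by
  cases P with
  | zero => exact ⟨⊥, inferInstance, fun σ _ => rfl⟩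
  | some x y h =>
    refine ⟨IntermediateField.adjoin ℚ {x, y}, ?_, fun σ hσ => ?_⟩
    · exact IntermediateField.finiteDimensional_adjoin fun z _ =>
        ((AlgebraicClosure.isAlgebraic ℚ).isAlgebraic z).isIntegral
    · rw [IntermediateField.mem_fixingSubgroup_iff] at hσ
      rw [Point.algEquiv_smul_def, Point.map_some]
      simp only [Point.some.injEq]
      exact ⟨hσ x (IntermediateField.subset_adjoin ℚ _ (by simp)),
        hσ y (IntermediateField.subset_adjoin ℚ _ (by simp))⟩

/-- All of `E[p]` is fixed by the Galois group of a number field. -/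
theorem exists_field_fixing_torsion [E.IsElliptic] [Fact p.Prime] :
    ∃ L : IntermediateField ℚ ℚbar, FiniteDimensional ℚ L ∧
      ∀ σ ∈ L.fixingSubgroup, ∀ x : Submodule.torsionBy ℤ (E⁄ℚbar).Point p, σ • x = x := by
  have : FiniteDimensional (ZMod p) (Submodule.torsionBy ℤ (E⁄ℚbar).Point p) :=
    Module.finite_of_finrank_eq_succ (finrank_torsion p)
  have : Finite (Submodule.torsionBy ℤ (E⁄ℚbar).Point p) := Module.finite_of_finite (ZMod p)
  choose L hL hfix using fun x : Submodule.torsionBy ℤ (E⁄ℚbar).Point p =>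
    exists_field_fixing_point (x : (E⁄ℚbar).Point)
  refine ⟨⨆ x, L x, IntermediateField.finiteDimensional_iSup_of_finite, fun σ hσ x => ?_⟩
  exact Subtype.ext (hfix x σ (IntermediateField.fixingSubgroup_antitone (le_iSup L x) hσ))

theorem normal_subKer {G k V : Type*} [Group G] [Field k] [AddCommGroup V] [Module k V]
    [DistribMulAction G V] {N : Submodule k V} (hN : ∀ σ : G, ∀ x ∈ N, σ • x ∈ N) :
    (subKer (G := G) N).Normal where
  conj_mem a ha g x hx := by
    rw [mul_smul, mul_smul, ha _ (hN g⁻¹ x hx), smul_inv_smul]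

theorem normal_quotKer {G k V : Type*} [Group G] [Field k] [AddCommGroup V] [Module k V]
    [DistribMulAction G V] {N : Submodule k V} (hN : ∀ σ : G, ∀ x ∈ N, σ • x ∈ N) :
    (quotKer N hN).Normal where
  conj_mem a ha g x := by
    have h := hN g _ (ha (g⁻¹ • x))
    rwa [smul_sub, smul_inv_smul, ← mul_smul, ← mul_smul] at h

variable [Fact p.Prime] (N : Submodule (ZMod p) (Submodule.torsionBy ℤ (E⁄ℚbar).Point p))

/-- **One of the two characters is trivial**, given the local behaviour of inertia. -/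
theorem sub_trivial_or_quot_trivial_of_local (W : WeierstrassCurve ℤ)
    (hWE : W.map (Int.castRingHom ℚ) = E) [E.IsElliptic] (hp2 : p ≠ 2)
    (huni : ∀ (q : ℕ), q.Prime → q ≠ p → ∀ A : ValuationSubring ℚbar, A.LiesOverPrime q →
      ∀ σ ∈ A.inertiaSubgroupIn ℚ, ∀ x : Submodule.torsionBy ℤ (E⁄ℚbar).Point p,
        σ • (σ • x - x) = σ • x - x)
    (hfil : ∀ A : ValuationSubring ℚbar, A.LiesOverPrime p →
      Nonempty (FiltrationAt (E := E) (p := p) A))
    (hN : Point.IsGaloisStable ℚ N) (hbot : N ≠ ⊥) (htop : N ≠ ⊤) :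
    (∀ σ : ℚbar ≃ₐ[ℚ] ℚbar, ∀ x ∈ N, σ • x = x) ∨
      (∀ σ : ℚbar ≃ₐ[ℚ] ℚbar, ∀ x : Submodule.torsionBy ℤ (E⁄ℚbar).Point p, σ • x - x ∈ N) := by
  obtain ⟨L, hL, hfix⟩ := exists_field_fixing_torsion (E := E) (p := p)
  have h2 := finrank_torsion (E := E) p
  have hψ : ∀ {x y : ℚbar} (h : (E⁄ℚbar).Nonsingular x y),
      (p : ℤ) • Point.some x y h = 0 ↔ ((E⁄ℚbar).ΨSq p).eval x = 0 :=
    fun h => FLTAgent.Torsion.zsmul_some_eq_zero_iff h p
  rcases inertia_le_subKer_or_le_quotKer N W hWE hp2 h2 hψ huni hfil hN hbot htop with h | h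
  · left
    have := normal_subKer hN
    have htop' : subKer N = (⊤ : Subgroup (ℚbar ≃ₐ[ℚ] ℚbar)) :=
      eq_top_of_inertia_le _ L (fun σ hσ x _ => hfix σ hσ x) h
    exact fun σ => (mem_subKer N).1 (htop' ▸ Subgroup.mem_top σ)
  · right
    have := normal_quotKer hN
    have htop' : quotKer N hN = (⊤ : Subgroup (ℚbar ≃ₐ[ℚ] ℚbar)) :=
      eq_top_of_inertia_le _ L
        (fun σ hσ x => by rw [hfix σ hσ x, sub_self]; exact N.zero_mem) h
    exact fun σ => (mem_quotKer N).1 (htop' ▸ Subgroup.mem_top σ)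

end FLTAgent.GalChar
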