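import Fermat.Agent.Char.FreyReducible
import Fermat.Agent.Reduction.Inertia
import Fermat.Agent.Reduction.Rational

/-!
# Reducible semistable curves: one of the two characters is trivial
-/

set_option autoImplicit false

namespace FLTAgent.GalChar

open WeierstrassCurve WeierstrassCurve.Affine FLTAgent.Reduction

local notation "ℚbar" => AlgebraicClosure ℚ

theorem inertiaMovesInZero_of_semistable {W : WeierstrassCurve ℤ} (hΔ : W.Δ ≠ 0)
    (hW : W.IsSemistableModel) : InertiaMovesInZero W :=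
  fun q hq hbad _ hA _ hσ P => smul_sub_mem_zeroSubgroup hA hq hΔ hbad (hW q hq hbad) hσ P

/-- **A reducible semistable `E[p]` has a trivial character**: a stable line is either pointwise
fixed or cofixed. -/
theorem sub_trivial_or_quot_trivial (W : WeierstrassCurve ℤ) (hΔ : W.Δ ≠ 0)
    (hW : W.IsSemistableModel) {p : ℕ} [Fact p.Prime] (hp2 : p ≠ 2)
    (N : Submodule (ZMod p) (Submodule.torsionBy ℤ ((W.map (Int.castRingHom ℚ))⁄ℚbar).Point p))
    (hN : Point.IsGaloisStable ℚ N) (hbot : N ≠ ⊥) (htop : N ≠ ⊤) :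
    (∀ σ : ℚbar ≃ₐ[ℚ] ℚbar, ∀ x ∈ N, σ • x = x) ∨
      (∀ (σ : ℚbar ≃ₐ[ℚ] ℚbar)
        (x : Submodule.torsionBy ℤ ((W.map (Int.castRingHom ℚ))⁄ℚbar).Point p), σ • x - x ∈ N) :=
  sub_trivial_or_quot_trivial_of_movesInZero (inertiaMovesInZero_of_semistable hΔ hW) hΔ hp2
    N hN hbot htop

theorem freyComponentFacts (P : FreyPackage) : FreyComponentFacts P where
  moves := inertiaMovesInZero_of_semistable (Frey.freyCurveInt_Δ_ne_zero P)
    (Frey.freyCurveInt_isSemistableModel P)
  two A hA R hR hfix :=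
    mem_zeroSubgroup_of_fixed hA Nat.prime_two (Frey.freyCurveInt_Δ_ne_zero P)
      (Frey.two_dvd_freyCurveInt_Δ P)
      (Frey.freyCurveInt_isSemistableModel P 2 Nat.prime_two (Frey.two_dvd_freyCurveInt_Δ P))
      ((Nat.Prime.coprime_iff_not_dvd P.pp).2 (Frey.p_not_dvd_padicValInt_two_Δ P)) hfix
      (by rw [hR]; exact zero_mem _)

end FLTAgent.GalChar
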